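/-
S56 / F / Ram / Defs : definitions for the ramification bound.      (helper6)

* `OW p W`            : the integers of `Fix W`, as a subring of `Qbar`
* `TotRam p D0 DM ϖ`  : `M = Fix DM` is a finite Galois, totally ramified extension of the unramified
                        field `K0 = Fix D0`, with uniformiser `ϖ`
* `orb D0 ϖ`          : the conjugates of `ϖ` over `K0`
-/
import Fermat.Agent.S56.F.Defs
import Fermat.Agent.S55.Places.Galois

set_option autoImplicit false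

noncomputable section

namespace Fermat.Agent.S56.F.Ram

open Fermat.Agent.S55 Fermat.Agent.S55.Places

/-- the integers of `Fix W`, as a subring of `Qbar`. -/
def OW (p : ℕ) [Fact p.Prime] (W : Subgroup GQ) : Subring Qbar where
  carrier := {x | nrm p x ≤ 1 ∧ ∀ σ ∈ W, σ x = x}
  mul_mem' := by
    rintro a b ⟨ha, ha'⟩ ⟨hb, hb'⟩
    refine ⟨?_, fun σ hσ => by rw [map_mul, ha' σ hσ, hb' σ hσ]⟩
    rw [nrm_mul]
    exact mul_le_one₀ ha (nrm_nonneg p _) hb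
  one_mem' := ⟨by simp [nrm], fun σ _ => map_one σ⟩
  add_mem' := by
    rintro a b ⟨ha, ha'⟩ ⟨hb, hb'⟩
    exact ⟨(nrm_add_le_max p a b).trans (max_le ha hb),
      fun σ hσ => by rw [map_add, ha' σ hσ, hb' σ hσ]⟩
  zero_mem' := ⟨by simp [nrm], fun σ _ => map_zero σ⟩
  neg_mem' := by
    rintro a ⟨ha, ha'⟩
    exact ⟨by rw [nrm_neg]; exact ha, fun σ hσ => by rw [map_neg, ha' σ hσ]⟩

theorem mem_OW {p : ℕ} [Fact p.Prime] {W : Subgroup GQ} {x : Qbar} :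
    x ∈ OW p W ↔ nrm p x ≤ 1 ∧ ∀ σ ∈ W, σ x = x := Iff.rfl

/-- `Fix DM / Fix D0` is finite Galois and totally ramified, `Fix D0` is unramified over `ℚ_p`,
`ϖ` is a uniformiser of `Fix DM`. -/
structure TotRam (p : ℕ) [Fact p.Prime] (D0 DM : Subgroup GQ) (ϖ : Qbar) : Prop where
  open0 : IsOpenIn (Dq p) D0
  inertia : Iq p ≤ D0
  openM : IsOpenIn D0 DM
  normal : ∀ g ∈ D0, ∀ h ∈ DM, g * h * g⁻¹ ∈ DM
  tot : ∀ g ∈ D0, ∃ i ∈ Iq p, i⁻¹ * g ∈ DM
  mem : ϖ ∈ Places.Fix DM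
  ne : ϖ ≠ 0
  lt : nrm p ϖ < 1
  unif : ∀ x ∈ Places.Fix DM, x ≠ 0 → ∃ n : ℤ, nrm p x = nrm p ϖ ^ n

/-- the conjugates of `ϖ` over `Fix D0`. -/
def orb (D0 : Subgroup GQ) (ϖ : Qbar) : Finset Qbar :=
  ((minpoly (Places.Fix D0) ϖ).aroots Qbar).toFinset

end Fermat.Agent.S56.F.Ram

end
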