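/-
S56 / F / Ram / Expand : `ϖ`-adic expansions in a totally ramified extension (GENERAL, = (K0)).  (helper6)
TASKS  S56/F-Ram-Sum (`nrm_sum_le_iff_of_distinct`, `nrm_sum_pow_le_iff`),
       S56/F-Ram-Coeffs (`exists_coeffs`),  S56/F-Ram-Expand (the polynomial forms).

Setting: `W0` a subgroup whose fixed field has value group `p^ℤ` (`hval`), `y ∈ Qbar` with `|y|^n = 1/p`.
-/
import Fermat.Agent.S56.F.Ram.Defs
import Fermat.Agent.S55.Places.Ring

set_option autoImplicit false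

noncomputable section

namespace Fermat.Agent.S56.F.Ram

open Fermat.Agent.S55 Fermat.Agent.S55.Places Polynomial

variable {p : ℕ} [Fact p.Prime]

/-- auxiliary induction for `nrm_sum_le_iff_of_distinct`. -/
theorem Expand_sum_aux {ι : Type*} (s : Finset ι) (f : ι → Qbar)
    (hd : ∀ i ∈ s, ∀ j ∈ s, i ≠ j → f i ≠ 0 → nrm p (f i) ≠ nrm p (f j)) :
    (∀ i ∈ s, nrm p (f i) ≤ nrm p (∑ i ∈ s, f i)) ∧
      ((∑ i ∈ s, f i = 0) ∨ ∃ i ∈ s, f i ≠ 0 ∧ nrm p (∑ i ∈ s, f i) = nrm p (f i)) := by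
  classical
  induction s using Finset.induction_on with
  | empty => exact ⟨by simp, Or.inl (by simp)⟩
  | insert a s ha ih =>
    obtain ⟨ihA, ihB⟩ := ih (fun i hi j hj =>
      hd i (Finset.mem_insert_of_mem hi) j (Finset.mem_insert_of_mem hj))
    rw [Finset.sum_insert ha]
    by_cases hfa : f a = 0
    · rw [hfa, zero_add]
      refine ⟨?_, ?_⟩
      · intro i hi
        rcases Finset.mem_insert.mp hi with rfl | hi
        · rw [hfa, nrm_zero]; exact nrm_nonneg p _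
        · exact ihA i hi
      · rcases ihB with h | ⟨i, hi, h1, h2⟩
        · exact Or.inl h
        · exact Or.inr ⟨i, Finset.mem_insert_of_mem hi, h1, h2⟩
    · rcases ihB with h | ⟨i, hi, h1, h2⟩
      · rw [h, add_zero]
        refine ⟨?_, Or.inr ⟨a, Finset.mem_insert_self _ _, hfa, rfl⟩⟩
        intro j hj
        rcases Finset.mem_insert.mp hj with rfl | hj
        · exact le_rfl
        · have := ihA j hj
          rw [h, nrm_zero] at this
          exact this.trans (nrm_nonneg p _)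
      · have hne : nrm p (f a) ≠ nrm p (∑ i ∈ s, f i) := by
          rw [h2]
          exact hd a (Finset.mem_insert_self _ _) i (Finset.mem_insert_of_mem hi)
            (by rintro rfl; exact ha hi) hfa
        have hmax := nrm_add_eq_max_of_ne p hne
        rw [hmax]
        refine ⟨?_, Or.inr ?_⟩
        · intro j hj
          rcases Finset.mem_insert.mp hj with rfl | hj
          · exact le_max_left _ _
          · exact (ihA j hj).trans (le_max_right _ _)
        · rcases le_total (nrm p (f a)) (nrm p (∑ i ∈ s, f i)) with hle | hle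
          · exact ⟨i, Finset.mem_insert_of_mem hi, h1, by rw [max_eq_right hle, h2]⟩
          · exact ⟨a, Finset.mem_insert_self _ _, hfa, by rw [max_eq_left hle]⟩

/-- ultrametric: a finite sum whose non zero terms have pairwise distinct norms has norm the maximum
of the norms.  Induction on `s` with `nrm_add_eq_max_of_ne`. -/
theorem nrm_sum_le_iff_of_distinct {ι : Type*} (s : Finset ι) (f : ι → Qbar)
    (hd : ∀ i ∈ s, ∀ j ∈ s, i ≠ j → f i ≠ 0 → nrm p (f i) ≠ nrm p (f j)) (C : ℝ) (hC : 0 ≤ C) :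
    nrm p (∑ i ∈ s, f i) ≤ C ↔ ∀ i ∈ s, nrm p (f i) ≤ C := by
  constructor
  · intro h i hi
    exact ((Expand_sum_aux s f hd).1 i hi).trans h
  · intro h
    exact nrm_sum_le p s f C hC h

/-- the terms `c_i β^i`, `i < n`, have distinct norms: `|c_i| = p^a`, `|c_j| = p^b`,
`p^a |β|^i = p^b |β|^j` with `i < j < n`; raise to the `n`-th power: `p^(n a - i) = p^(n b - j)`, so
`n ∣ j - i`, impossible. -/
theorem nrm_sum_pow_le_iff {W0 : Subgroup GQ}
    (hval : ∀ x ∈ Places.Fix W0, x ≠ 0 → ∃ m : ℤ, nrm p x = (p : ℝ) ^ m)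
    {n : ℕ} {β : Qbar} (hβ : nrm p β ^ n = (p : ℝ)⁻¹) (c : Fin n → Qbar)
    (hc : ∀ i, c i ∈ Places.Fix W0) (C : ℝ) (hC : 0 ≤ C) :
    nrm p (∑ i, c i * β ^ (i : ℕ)) ≤ C ↔ ∀ i, nrm p (c i) * nrm p β ^ (i : ℕ) ≤ C := by
  have hp : p.Prime := Fact.out
  have hp0 : (0 : ℝ) < p := by exact_mod_cast hp.pos
  have hp1 : (p : ℝ) ≠ 1 := by exact_mod_cast hp.one_lt.ne'
  have hd : ∀ i ∈ (Finset.univ : Finset (Fin n)), ∀ j ∈ (Finset.univ : Finset (Fin n)), i ≠ j →
      c i * β ^ (i : ℕ) ≠ 0 → nrm p (c i * β ^ (i : ℕ)) ≠ nrm p (c j * β ^ (j : ℕ)) := by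
    intro i _ j _ hij hne heq
    have hci : c i ≠ 0 := left_ne_zero_of_mul hne
    have hne' : c j * β ^ (j : ℕ) ≠ 0 := by
      rw [← nrm_pos_iff p, ← heq, nrm_pos_iff p]
      exact hne
    have hcj : c j ≠ 0 := left_ne_zero_of_mul hne'
    obtain ⟨a, ha⟩ := hval _ (hc i) hci
    obtain ⟨b, hb⟩ := hval _ (hc j) hcj
    rw [nrm_mul, nrm_mul, nrm_pow, nrm_pow, ha, hb] at heq
    have e2 := congrArg (fun t : ℝ => t ^ n) heq
    simp only [mul_pow] at e2
    rw [← pow_mul, ← pow_mul, mul_comm (i : ℕ) n, mul_comm (j : ℕ) n, pow_mul, pow_mul, hβ,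
      ← zpow_natCast ((p : ℝ) ^ a) n, ← zpow_natCast ((p : ℝ) ^ b) n, ← zpow_mul, ← zpow_mul,
      inv_pow, inv_pow, ← zpow_natCast (p : ℝ) (i : ℕ), ← zpow_natCast (p : ℝ) (j : ℕ),
      ← zpow_neg, ← zpow_neg, ← zpow_add₀ hp0.ne', ← zpow_add₀ hp0.ne'] at e2
    have e3 := zpow_right_injective₀ hp0 hp1 e2
    have hdvd : (n : ℤ) ∣ ((i : ℕ) : ℤ) - ((j : ℕ) : ℤ) := ⟨a - b, by linarith⟩
    have hi := i.2
    have hj := j.2
    have habs : |((i : ℕ) : ℤ) - ((j : ℕ) : ℤ)| < (n : ℤ) := by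
      rw [abs_lt]
      constructor <;> omega
    have h0 := Int.eq_zero_of_abs_lt_dvd hdvd habs
    apply hij
    apply Fin.ext
    omega
  rw [nrm_sum_le_iff_of_distinct Finset.univ _ hd C hC]
  constructor
  · intro h i
    have := h i (Finset.mem_univ i)
    rwa [nrm_mul, nrm_pow] at this
  · intro h i _
    rw [nrm_mul, nrm_pow]
    exact h i

/-- `1, y, …, y^(n-1)` is a basis of `Fix W1` over `Fix W0`: linearly independent by
`nrm_sum_pow_le_iff` (`C = 0`), and `[Fix W1 : Fix W0] = n` (`IsOpenIn.relfinrank_eq`; see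
`S55/Places/Ring.lean` (`algFix`, `finrank_algFix`) for the way to turn `relfinrank` into a `finrank`). -/
theorem exists_coeffs {W0 W1 : Subgroup GQ} (hW1 : IsOpenIn W0 W1)
    (hval : ∀ x ∈ Places.Fix W0, x ≠ 0 → ∃ m : ℤ, nrm p x = (p : ℝ) ^ m)
    {n : ℕ} (hn : (W1.subgroupOf W0).index = n) {y : Qbar} (hy : y ∈ Places.Fix W1)
    (hyn : nrm p y ^ n = (p : ℝ)⁻¹) {z : Qbar} (hz : z ∈ Places.Fix W1) :
    ∃ c : Fin n → Qbar, (∀ i, c i ∈ Places.Fix W0) ∧ z = ∑ i, c i * y ^ (i : ℕ) := by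
  have hp := (Fact.out : p.Prime)
  have hp0 : ((p : ℝ)⁻¹) ≠ 0 := inv_ne_zero (by exact_mod_cast hp.ne_zero)
  have hn0 : n ≠ 0 := by
    rintro rfl
    rw [pow_zero] at hyn
    have h1 : (p : ℝ) = 1 := by
      rw [← inv_inv (p : ℝ), ← hyn, inv_one]
    have : p = 1 := by exact_mod_cast h1
    exact hp.one_lt.ne' this
  have hy0 : nrm p y ≠ 0 := by
    intro h
    rw [h, zero_pow hn0] at hyn
    exact hp0 hyn.symm
  have hle : Places.Fix W0 ≤ Places.Fix W1 := Fix_anti hW1.1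
  set L := IntermediateField.extendScalars hle with hL
  have hrank : Module.finrank (Places.Fix W0) L = n := by
    rw [← hn, ← hW1.relfinrank_eq, IntermediateField.relfinrank_eq_finrank_of_le hle]
  have hfin : FiniteDimensional (Places.Fix W0) L :=
    Module.finite_of_finrank_pos (by rw [hrank]; exact Nat.pos_of_ne_zero hn0)
  let y' : L := ⟨y, (IntermediateField.mem_extendScalars hle).2 hy⟩
  let z' : L := ⟨z, (IntermediateField.mem_extendScalars hle).2 hz⟩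
  have hcoe : ∀ g : Fin n → Places.Fix W0,
      ((∑ i, g i • y' ^ (i : ℕ) : L) : Qbar) = ∑ i, (g i : Qbar) * y ^ (i : ℕ) := by
    intro g
    rw [IntermediateField.coe_sum]
    rfl
  have hli : LinearIndependent (Places.Fix W0) (fun i : Fin n => y' ^ (i : ℕ)) := by
    rw [Fintype.linearIndependent_iff]
    intro g hg i
    have h1 : ∑ i, (g i : Qbar) * y ^ (i : ℕ) = 0 := by
      rw [← hcoe g, hg]; rfl
    have h2 := (nrm_sum_pow_le_iff hval hyn (fun i => (g i : Qbar)) (fun i => (g i).2) 0 le_rfl).mp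
      (by rw [h1, nrm_zero]) i
    have h3 : 0 < nrm p y ^ (i : ℕ) := pow_pos (lt_of_le_of_ne (nrm_nonneg p y) hy0.symm) _
    have h4 : nrm p (g i : Qbar) = 0 := by
      have h5 := nrm_nonneg p (g i : Qbar)
      nlinarith
    apply Subtype.ext
    exact (nrm_eq_zero_iff p).mp h4
  have hspan := hli.span_eq_top_of_card_eq_finrank' (by rw [Fintype.card_fin, hrank])
  have hz' : z' ∈ Submodule.span (Places.Fix W0) (Set.range fun i : Fin n => y' ^ (i : ℕ)) := by
    rw [hspan]; exact Submodule.mem_top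
  obtain ⟨c, hc⟩ := (Submodule.mem_span_range_iff_exists_fun _).mp hz'
  refine ⟨fun i => (c i : Qbar), fun i => (c i).2, ?_⟩
  rw [← hcoe c, hc]

/-- integral coefficients, `|β| ≤ 1`. -/
theorem nrm_aeval_le_one {W0 : Subgroup GQ} (G : (OW p W0)[X]) {β : Qbar} (hβ : nrm p β ≤ 1) :
    nrm p (aeval β G) ≤ 1 := by
  rw [aeval_eq_sum_range]
  refine nrm_sum_le p _ _ 1 zero_le_one fun i _ => ?_
  rw [Algebra.smul_def, nrm_mul, nrm_pow]
  exact mul_le_one₀ (G.coeff i).2.1 (pow_nonneg (nrm_nonneg p _) _)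
    (pow_le_one₀ (nrm_nonneg p _) hβ)

/-- elements of `W0` fix the coefficients. -/
theorem map_aeval {W0 : Subgroup GQ} (G : (OW p W0)[X]) {g : GQ} (hg : g ∈ W0) (β : Qbar) :
    g (aeval β G) = aeval (g β) G := by
  rw [aeval_eq_sum_range, aeval_eq_sum_range, map_sum]
  refine Finset.sum_congr rfl fun i _ => ?_
  rw [Algebra.smul_def, Algebra.smul_def, map_mul, map_pow]
  congr 1
  exact (G.coeff i).2.2 g hg

/-- **expansion**: from `exists_coeffs`; `|z| ≤ 1` and `nrm_sum_pow_le_iff` give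
`|c_i| |y|^i ≤ 1`, and `|c_i| ∈ p^ℤ`, `|y|^i > 1/p` (`i < n`) force `|c_i| ≤ 1`.
`G := ∑ i, C ⟨c i, _⟩ * X ^ i`. -/
theorem expand {W0 W1 : Subgroup GQ} (hW1 : IsOpenIn W0 W1)
    (hval : ∀ x ∈ Places.Fix W0, x ≠ 0 → ∃ m : ℤ, nrm p x = (p : ℝ) ^ m)
    {n : ℕ} (hn : (W1.subgroupOf W0).index = n) {y : Qbar} (hy : y ∈ Places.Fix W1)
    (hyn : nrm p y ^ n = (p : ℝ)⁻¹) {z : Qbar} (hz : z ∈ OW p W1) :
    ∃ G : (OW p W0)[X], G.natDegree < n ∧ aeval y G = z := by
  have hp : (p : ℕ).Prime := Fact.out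
  have hp1 : (1 : ℝ) < p := by exact_mod_cast hp.one_lt
  have hp0 : (0 : ℝ) < p := lt_trans zero_lt_one hp1
  have hinv : (p : ℝ)⁻¹ < 1 := inv_lt_one_of_one_lt₀ hp1
  obtain ⟨hz1, hzfix⟩ := mem_OW.1 hz
  have hzF : z ∈ Places.Fix W1 := mem_Fix_iff.2 hzfix
  obtain ⟨c, hc, hzc⟩ := exists_coeffs hW1 hval hn hy hyn hzF
  have hn0 : 0 < n := by
    rcases Nat.eq_zero_or_pos n with h0 | h0
    · rw [h0, pow_zero] at hyn
      exact absurd hyn hinv.ne'
    · exact h0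
  have hy1 : nrm p y < 1 := by
    by_contra hge
    rw [not_lt] at hge
    have := one_le_pow₀ hge (n := n)
    rw [hyn] at this
    exact absurd this (not_le.mpr hinv)
  have hy0 : 0 < nrm p y := by
    rcases (nrm_nonneg p y).lt_or_eq with h | h
    · exact h
    · rw [← h, zero_pow hn0.ne'] at hyn
      exact absurd hyn (inv_pos.2 hp0).ne
  have hle := (nrm_sum_pow_le_iff hval hyn c hc 1 zero_le_one).1 (by rw [← hzc]; exact hz1)
  have hc1 : ∀ i, nrm p (c i) ≤ 1 := by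
    intro i
    by_cases h0 : c i = 0
    · rw [h0, nrm_zero]; exact zero_le_one
    obtain ⟨m, hm⟩ := hval (c i) (hc i) h0
    by_contra hgt
    rw [not_le] at hgt
    have hm1 : 1 ≤ m := by
      by_contra hm0
      have hm0' : m ≤ 0 := by omega
      have : (p : ℝ) ^ m ≤ 1 := zpow_le_one_of_nonpos₀ hp1.le hm0'
      rw [← hm] at this
      exact absurd this (not_le.mpr hgt)
    have hcp : (p : ℝ) ≤ nrm p (c i) := by
      rw [hm]
      calc (p : ℝ) = (p : ℝ) ^ (1 : ℤ) := (zpow_one _).symm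
        _ ≤ (p : ℝ) ^ m := zpow_le_zpow_right₀ hp1.le hm1
    have hyi : (p : ℝ)⁻¹ < nrm p y ^ (i : ℕ) := by
      rw [← hyn]
      exact pow_lt_pow_right_of_lt_one₀ hy0 hy1 i.2
    have : 1 < nrm p (c i) * nrm p y ^ (i : ℕ) := by
      calc (1 : ℝ) = p * (p : ℝ)⁻¹ := (mul_inv_cancel₀ hp0.ne').symm
        _ < p * nrm p y ^ (i : ℕ) := mul_lt_mul_of_pos_left hyi hp0
        _ ≤ nrm p (c i) * nrm p y ^ (i : ℕ) :=
          mul_le_mul_of_nonneg_right hcp (pow_nonneg hy0.le _)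
    exact absurd (hle i) (not_le.mpr this)
  let c' : Fin n → OW p W0 := fun i => ⟨c i, mem_OW.2 ⟨hc1 i, mem_Fix_iff.1 (hc i)⟩⟩
  refine ⟨∑ i : Fin n, C (c' i) * X ^ (i : ℕ), ?_, ?_⟩
  · by_cases hG : (∑ i : Fin n, C (c' i) * X ^ (i : ℕ)) = 0
    · rw [hG, natDegree_zero]; exact hn0
    · exact (natDegree_lt_iff_degree_lt hG).2 (degree_sum_fin_lt c')
  · rw [map_sum, hzc]
    refine Finset.sum_congr rfl fun i _ => ?_
    rw [map_mul, aeval_C, map_pow, aeval_X]
    rfl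

/-- **the norm only depends on `|β|`**: write `aeval β G = ∑ i : Fin n, coeff i * β^i`
(`Polynomial.aeval_eq_sum_range'`), apply `nrm_sum_pow_le_iff` twice. -/
theorem nrm_aeval_eq {W0 : Subgroup GQ}
    (hval : ∀ x ∈ Places.Fix W0, x ≠ 0 → ∃ m : ℤ, nrm p x = (p : ℝ) ^ m)
    {n : ℕ} {y β : Qbar} (hyn : nrm p y ^ n = (p : ℝ)⁻¹) (hβ : nrm p β = nrm p y)
    (G : (OW p W0)[X]) (hG : G.natDegree < n) : nrm p (aeval β G) = nrm p (aeval y G) := by
  have hβn : nrm p β ^ n = (p : ℝ)⁻¹ := by rw [hβ]; exact hyn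
  have hform : ∀ t : Qbar, aeval t G = ∑ i : Fin n, ((G.coeff (i : ℕ) : OW p W0) : Qbar) * t ^ (i : ℕ) := by
    intro t
    rw [aeval_eq_sum_range' hG, Finset.sum_range]
    refine Finset.sum_congr rfl fun i _ => ?_
    rw [Algebra.smul_def]
    rfl
  have hc : ∀ i : Fin n, ((G.coeff (i : ℕ) : OW p W0) : Qbar) ∈ Places.Fix W0 :=
    fun i => mem_Fix_iff.2 (G.coeff (i : ℕ)).2.2
  have key : ∀ C : ℝ, 0 ≤ C → (nrm p (aeval β G) ≤ C ↔ nrm p (aeval y G) ≤ C) := by
    intro C hC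
    rw [hform β, hform y, nrm_sum_pow_le_iff hval hβn _ hc C hC,
      nrm_sum_pow_le_iff hval hyn _ hc C hC, hβ]
  exact le_antisymm ((key _ (nrm_nonneg p _)).2 le_rfl) ((key _ (nrm_nonneg p _)).1 le_rfl)

end Fermat.Agent.S56.F.Ram

end
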