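/-
S56 / F / Ram / Index : `e = n` for a totally ramified extension.      (helper6)
TASKS  S56/F-Ram-Res (`TotRam.val0`, `TotRam.residue`),  S56/F-Ram-Index (`TotRam.nrm_pow_index`).
-/
import Fermat.Agent.S56.F.Ram.Expand
import Fermat.Agent.S56.F.R0
import Fermat.Agent.S55.Places.Roots
import Fermat.Agent.S55.Places.Residue

set_option autoImplicit false

noncomputable section

namespace Fermat.Agent.S56.F.Ram

open Fermat.Agent.S55 Fermat.Agent.S55.Places Polynomial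

variable {p : ℕ} [Fact p.Prime] {D0 DM : Subgroup GQ} {ϖ : Qbar}

/-- `Fix D0` is unramified (`F.exists_zpow_of_fixed`, `T.inertia`). -/
theorem TotRam.val0 (T : TotRam p D0 DM ϖ) :
    ∀ x ∈ Places.Fix D0, x ≠ 0 → ∃ m : ℤ, nrm p x = (p : ℝ) ^ m := by
  intro x hx h0
  exact F.exists_zpow_of_fixed (fun σ hσ => mem_Fix_iff.1 hx σ (T.inertia hσ)) h0

/-- **residue degree one.**  If `|z| < 1` take `w = 0`.  If `|z| = 1`: `exists_residue_degree` for
`ℚ(z)` + `exists_root_near` give a root of unity `ζ` of order prime to `p` with `|z - ζ| < 1`.  For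
`g ∈ D0` write `g = i m`, `i ∈ I`, `m ∈ DM` (`T.tot`): `m z = z`, `|i z - z| < 1` (`mem_Iq_iff`), so
`|g ζ - ζ| < 1` (`g` preserves the norm), hence `g ζ = ζ` (`eq_of_nrm_sub_lt_one`). -/
theorem TotRam.residue (T : TotRam p D0 DM ϖ) {z : Qbar} (hz : z ∈ OW p DM) :
    ∃ w ∈ OW p D0, nrm p (z - w) < 1 := by
  obtain ⟨hz1, hzfix⟩ := mem_OW.1 hz
  rcases lt_or_eq_of_le hz1 with hlt | h1
  · exact ⟨0, (OW p D0).zero_mem, by rw [sub_zero]; exact hlt⟩
  have hfd := cyclo_finiteDimensional_adjoin z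
  obtain ⟨f, hf, hfj⟩ := exists_residue_degree p (IntermediateField.adjoin ℚ {z} : NF)
  have h2 : nrm p (z ^ (p ^ f) - z) < 1 :=
    (hfj f).2 dvd_rfl z (IntermediateField.mem_adjoin_simple_self ℚ z) hz1
  obtain ⟨ζ, hζ, hzζ⟩ := exists_root_near hf h1 h2
  have hcop : Nat.Coprime (p ^ f - 1) p := Roots_coprime hf
  have hm0 : p ^ f - 1 ≠ 0 := Roots_pos_of_coprime hcop
  refine ⟨ζ, mem_OW.2 ⟨(nrm_eq_one_of_pow_eq_one p hm0 hζ).le, fun g hg => ?_⟩, hzζ⟩
  obtain ⟨i, hi, him⟩ := T.tot g hg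
  have hgD : g ∈ Dq p := T.open0.1 hg
  have hgz : g z = i z := by
    have h3 := hzfix _ him
    rw [AlgEquiv.mul_apply] at h3
    have h4 := congrArg i h3
    rwa [← AlgEquiv.mul_apply, mul_inv_cancel, AlgEquiv.one_apply] at h4
  have h5 : nrm p (g z - z) < 1 := by
    rw [hgz]
    exact ((mem_Iq_iff p).1 hi).2 z hz1
  have h6 : nrm p (g ζ - g z) < 1 := by
    rw [← map_sub, nrm_map_of_mem_Dq p hgD, nrm_sub_comm]
    exact hzζ
  have h7 : nrm p (g ζ - ζ) < 1 := by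
    have e : g ζ - ζ = (g ζ - g z) + ((g z - z) + (z - ζ)) := by ring
    rw [e]
    exact lt_of_le_of_lt (nrm_add_le_max p _ _)
      (max_lt h6 (lt_of_le_of_lt (nrm_add_le_max p _ _) (max_lt h5 hzζ)))
  exact eq_of_nrm_sub_lt_one hcop (by rw [← map_pow, hζ, map_one]) hζ h7

theorem Index_pos (T : TotRam p D0 DM ϖ) : 0 < nrm p ϖ := (nrm_pos_iff p).2 T.ne

/-- there is `e' > 0` with `|ϖ|^e' = 1/p`. -/
theorem Index_exists_e (T : TotRam p D0 DM ϖ) : ∃ e : ℕ, 0 < e ∧ nrm p ϖ ^ e = (p : ℝ)⁻¹ := by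
  have hp1 : (1 : ℝ) < p := by exact_mod_cast (Fact.out : p.Prime).one_lt
  have hp0 : (p : Qbar) ≠ 0 := by exact_mod_cast (Fact.out : p.Prime).ne_zero
  obtain ⟨n, hn⟩ := T.unif (p : Qbar) (natCast_mem _ p) hp0
  rw [nrm_natCast_self] at hn
  have hpos := Index_pos T
  have hn0 : 0 < n := by
    by_contra hcon
    rw [not_lt] at hcon
    have h1 : 1 ≤ nrm p ϖ ^ n := by
      obtain ⟨m, rfl⟩ : ∃ m : ℕ, n = -(m : ℤ) := ⟨(-n).toNat, by omega⟩
      rw [zpow_neg, zpow_natCast]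
      exact (one_le_inv₀ (by positivity)).2 (pow_le_one₀ hpos.le T.lt.le)
    rw [← hn] at h1
    have : (p : ℝ)⁻¹ < 1 := inv_lt_one_of_one_lt₀ hp1
    linarith
  refine ⟨n.toNat, by omega, ?_⟩
  rw [hn, ← zpow_natCast, Int.toNat_of_nonneg hn0.le]

/-- an element of `Fix DM` of norm `< 1` has norm `≤ |ϖ|`. -/
theorem Index_le_of_lt_one (T : TotRam p D0 DM ϖ) {x : Qbar} (hx : x ∈ Places.Fix DM)
    (h1 : nrm p x < 1) : nrm p x ≤ nrm p ϖ := by
  have hpos := Index_pos T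
  by_cases h0 : x = 0
  · rw [h0, nrm_zero]; exact hpos.le
  obtain ⟨n, hn⟩ := T.unif x hx h0
  have hn0 : 0 < n := by
    by_contra hcon
    rw [not_lt] at hcon
    have h2 : 1 ≤ nrm p ϖ ^ n := by
      obtain ⟨m, rfl⟩ : ∃ m : ℕ, n = -(m : ℤ) := ⟨(-n).toNat, by omega⟩
      rw [zpow_neg, zpow_natCast]
      exact (one_le_inv₀ (by positivity)).2 (pow_le_one₀ hpos.le T.lt.le)
    rw [← hn] at h2
    linarith
  obtain ⟨m, rfl⟩ : ∃ m : ℕ, n = ((m + 1 : ℕ) : ℤ) := ⟨(n - 1).toNat, by omega⟩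
  rw [hn, zpow_natCast, pow_succ]
  exact mul_le_of_le_one_left hpos.le (pow_le_one₀ hpos.le T.lt.le)

/-- `ϖ`-adic expansion up to order `k`. -/
theorem Index_expand (T : TotRam p D0 DM ϖ) {z : Qbar} (hz : z ∈ OW p DM) (k : ℕ) :
    ∃ w : ℕ → Qbar, (∀ i, w i ∈ OW p D0) ∧
      nrm p (z - ∑ i ∈ Finset.range k, w i * ϖ ^ i) ≤ nrm p ϖ ^ k := by
  have hpos := Index_pos T
  have hle : Places.Fix D0 ≤ Places.Fix DM := Fix_anti T.openM.1
  induction k with
  | zero => exact ⟨fun _ => 0, fun _ => zero_mem _, by simpa using hz.1⟩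
  | succ k ih =>
    obtain ⟨w, hw, hk⟩ := ih
    set r : Qbar := z - ∑ i ∈ Finset.range k, w i * ϖ ^ i with hr
    have hrM : r ∈ Places.Fix DM := by
      apply sub_mem ((mem_Fix_iff).2 hz.2)
      apply sum_mem
      intro i _
      exact mul_mem (hle ((mem_Fix_iff).2 (hw i).2)) (pow_mem T.mem i)
    have hq : r / ϖ ^ k ∈ OW p DM := by
      refine ⟨?_, (mem_Fix_iff).1 (div_mem hrM (pow_mem T.mem k))⟩
      rw [nrm_div, nrm_pow]
      exact div_le_one_of_le₀ hk (by positivity)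
    obtain ⟨v, hv, hv1⟩ := T.residue hq
    have hvM : r / ϖ ^ k - v ∈ Places.Fix DM :=
      sub_mem (div_mem hrM (pow_mem T.mem k)) (hle ((mem_Fix_iff).2 hv.2))
    have h2 := Index_le_of_lt_one T hvM hv1
    refine ⟨fun i => if i = k then v else w i, ?_, ?_⟩
    · intro i
      by_cases hi : i = k
      · simp only [hi, if_true]; exact hv
      · simp only [hi, if_false]; exact hw i
    · rw [Finset.sum_range_succ]
      have h3 : ∑ i ∈ Finset.range k, (if i = k then v else w i) * ϖ ^ i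
          = ∑ i ∈ Finset.range k, w i * ϖ ^ i := by
        apply Finset.sum_congr rfl
        intro i hi
        rw [if_neg (Finset.mem_range.1 hi).ne]
      rw [h3]
      simp only [if_true]
      have h4 : z - (∑ i ∈ Finset.range k, w i * ϖ ^ i + v * ϖ ^ k)
          = (r / ϖ ^ k - v) * ϖ ^ k := by
        rw [sub_mul, div_mul_cancel₀ _ (pow_ne_zero k T.ne), hr]; ring
      rw [h4, nrm_mul, nrm_pow, pow_succ, mul_comm]
      exact mul_le_mul_of_nonneg_left h2 (by positivity)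

/-- independence mod `p`. -/
theorem Index_indep (T : TotRam p D0 DM ϖ) {e : ℕ} (he : nrm p ϖ ^ e = (p : ℝ)⁻¹)
    (c : Fin e → Qbar) (hc : ∀ i, c i ∈ Places.Fix D0)
    (h : nrm p (∑ i, c i * ϖ ^ (i : ℕ)) ≤ (p : ℝ)⁻¹) (i : Fin e) : nrm p (c i) ≤ (p : ℝ)⁻¹ := by
  have hpos := Index_pos T
  have hp1 : (1 : ℝ) < p := by exact_mod_cast (Fact.out : p.Prime).one_lt
  have hp0 : (0 : ℝ) < p := by linarith
  have h1 := (nrm_sum_pow_le_iff T.val0 he c hc (p : ℝ)⁻¹ (by positivity)).1 h i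
  by_cases h0 : c i = 0
  · rw [h0, nrm_zero]; positivity
  obtain ⟨m, hm⟩ := T.val0 (c i) (hc i) h0
  have hm0 : m < 0 := by
    by_contra hcon
    rw [not_lt] at hcon
    have h2 : 1 ≤ nrm p (c i) := by rw [hm]; exact one_le_zpow₀ hp1.le hcon
    have h3 : nrm p ϖ ^ (i : ℕ) ≤ nrm p ϖ ^ e := by
      rw [he]
      refine le_trans ?_ h1
      exact le_mul_of_one_le_left (by positivity) h2
    have h4 : nrm p ϖ ^ e < nrm p ϖ ^ (i : ℕ) := pow_lt_pow_right_of_lt_one₀ hpos T.lt i.2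
    linarith
  rw [hm, ← zpow_neg_one]
  exact zpow_le_zpow_right₀ hp1.le (by omega)

/-- **`|ϖ|^e = 1/p`, `e = [D0 : DM]`.**  Let `e'` be defined by `|ϖ|^e' = 1/p` (`T.unif` for `x = p`; `e' > 0`).
`e' ≤ e`: `1, ϖ, …, ϖ^(e'-1)` are linearly independent over `Fix D0` (`nrm_sum_pow_le_iff`) in
`Fix DM`, of dimension `e` (`IsOpenIn.relfinrank_eq`).
`e ≤ e'`: by `residue` and induction every `z ∈ OW p DM` is `∑_{i<e'} w_i ϖ^i + p z'`, `w_i ∈ OW p D0`,
`z' ∈ OW p DM` (if `|z - w| < 1` then `|z - w| ≤ |ϖ|` by `T.unif`).  So `(O_{K0}/p)^e' → O_M/p` is onto;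
`card_ringOf_quot` (`S55/Places/Ring.lean`): `#(O_M/p) = p^[D:DM] = p^([D:D0] e)`, `#(O_{K0}/p) = p^[D:D0]`. -/
theorem TotRam.nrm_pow_index (T : TotRam p D0 DM ϖ) :
    nrm p ϖ ^ (DM.subgroupOf D0).index = (p : ℝ)⁻¹ := by
  obtain ⟨e, he0, he⟩ := Index_exists_e T
  have hle : Places.Fix D0 ≤ Places.Fix DM := Fix_anti T.openM.1
  have hDM : IsOpenIn (Dq p) DM := T.open0.trans T.openM
  set I0 : Ideal (ringOf p D0) := Ideal.span {(p : ringOf p D0) ^ 1} with hI0
  set IM : Ideal (ringOf p DM) := Ideal.span {(p : ringOf p DM) ^ 1} with hIM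
  let ι : ringOf p D0 → ringOf p DM := fun w => ⟨⟨((w : Places.Fix D0) : Qbar), hle w.1.2⟩, w.2⟩
  let ϖM : ringOf p DM := ⟨⟨ϖ, T.mem⟩, T.lt.le⟩
  let S : (Fin e → ringOf p D0) → ringOf p DM := fun w => ∑ i, ι (w i) * ϖM ^ (i : ℕ)
  have hcoe : ∀ w : Fin e → ringOf p D0, (((S w : ringOf p DM) : Places.Fix DM) : Qbar)
      = ∑ i, ((w i : Places.Fix D0) : Qbar) * ϖ ^ (i : ℕ) := by
    intro w
    simp only [S]
    push_cast
    rfl
  let Ψ : (Fin e → ringOf p D0 ⧸ I0) → ringOf p DM ⧸ IM :=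
    fun w => Ideal.Quotient.mk IM (S fun i => Quotient.out (w i))
  have hkey : ∀ w w' : Fin e → ringOf p D0, S w - S w' ∈ IM ↔ ∀ i, w i - w' i ∈ I0 := by
    intro w w'
    have h0 : ∀ i, w i - w' i ∈ I0 ↔
        nrm p (((w i - w' i : ringOf p D0) : Places.Fix D0) : Qbar) ≤ (p : ℝ)⁻¹ := by
      intro i
      rw [hI0, RingAux.mem_span_q_pow_iff, pow_one]
    simp only [h0]
    rw [hIM, RingAux.mem_span_q_pow_iff, pow_one]
    have h1 : (((S w - S w' : ringOf p DM) : Places.Fix DM) : Qbar)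
        = ∑ i, (((w i - w' i : ringOf p D0) : Places.Fix D0) : Qbar) * ϖ ^ (i : ℕ) := by
      push_cast
      rw [hcoe, hcoe, ← Finset.sum_sub_distrib]
      apply Finset.sum_congr rfl
      intro i _
      ring
    rw [h1]
    constructor
    · intro h i
      exact Index_indep T he (fun i => (((w i - w' i : ringOf p D0) : Places.Fix D0) : Qbar))
        (fun i => (w i - w' i : ringOf p D0).1.2) h i
    · intro h
      apply nrm_sum_le p _ _ _ (by positivity)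
      intro i _
      rw [nrm_mul, nrm_pow]
      exact (mul_le_of_le_one_right (nrm_nonneg p _)
        (pow_le_one₀ (nrm_nonneg p _) T.lt.le)).trans (h i)
  have hinj : Function.Injective Ψ := by
    intro w w' h
    have h1 := (hkey _ _).1 ((Ideal.Quotient.eq).1 h)
    funext i
    have h2 := (Ideal.Quotient.eq).2 (h1 i)
    simpa using h2
  have hsurj : Function.Surjective Ψ := by
    intro y
    obtain ⟨z, rfl⟩ := Ideal.Quotient.mk_surjective y
    obtain ⟨w, hw, hz⟩ := Index_expand T (z := ((z : Places.Fix DM) : Qbar))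
      ⟨z.2, (mem_Fix_iff).1 z.1.2⟩ e
    let w0 : Fin e → ringOf p D0 := fun i => ⟨⟨w i, (mem_Fix_iff).2 (hw i).2⟩, (hw i).1⟩
    refine ⟨fun i => Ideal.Quotient.mk I0 (w0 i), ?_⟩
    have h1 : S (fun i => Quotient.out (Ideal.Quotient.mk I0 (w0 i))) - S w0 ∈ IM := by
      rw [hkey]
      intro i
      rw [← Ideal.Quotient.eq]
      simp
    have h2 : S w0 - z ∈ IM := by
      rw [hIM, RingAux.mem_span_q_pow_iff, pow_one, ← he]
      have h3 : (((S w0 - z : ringOf p DM) : Places.Fix DM) : Qbar)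
          = -(((z : Places.Fix DM) : Qbar) - ∑ i ∈ Finset.range e, w i * ϖ ^ i) := by
        push_cast
        rw [hcoe, Finset.sum_range]
        ring
      rw [h3, nrm_neg]
      exact hz
    show Ideal.Quotient.mk IM _ = Ideal.Quotient.mk IM z
    rw [Ideal.Quotient.eq]
    have := IM.add_mem h1 h2
    simpa using this
  have hcard := Nat.card_congr (Equiv.ofBijective Ψ ⟨hinj, hsurj⟩)
  rw [Nat.card_fun, card_ringOf_quot hDM 1, card_ringOf_quot T.open0 1, Nat.card_fin, one_mul,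
    one_mul, ← pow_mul] at hcard
  have h5 := Nat.pow_right_injective (Fact.out : p.Prime).two_le hcard
  have h6 : (DM.subgroupOf (Dq p)).index = (DM.subgroupOf D0).index * (D0.subgroupOf (Dq p)).index :=
    (Subgroup.relIndex_mul_relIndex DM D0 (Dq p) T.openM.1 T.open0.1).symm
  rw [h6, mul_comm] at h5
  have h7 : e = (DM.subgroupOf D0).index := Nat.eq_of_mul_eq_mul_right
    (Nat.pos_of_ne_zero T.open0.finiteIndex) h5
  rw [← h7, he]

end Fermat.Agent.S56.F.Ram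

end
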