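/-
S56 / F / Ram / Orbit : the conjugates of an element over `Fix D0`.      (helper6)
TASKS  S56/F-Ram-OrbitA (`mem_orb`, `minpoly_map`, `aeval_derivative`, `exists_monic`),
       S56/F-Ram-OrbitB (`TotRam.card_orb`).
-/
import Fermat.Agent.S56.F.Ram.Index

set_option autoImplicit false

noncomputable section

namespace Fermat.Agent.S56.F.Ram

open Fermat.Agent.S55 Fermat.Agent.S55.Places Polynomial

variable {p : ℕ} [Fact p.Prime] {D0 DM : Subgroup GQ} {ϖ : Qbar}

private theorem OrbitA_isIntegral (D0 : Subgroup GQ) (ϖ : Qbar) : IsIntegral (Places.Fix D0) ϖ :=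
  ((AlgebraicClosure.isAlgebraic ℚ).isAlgebraic ϖ).isIntegral.tower_top

private theorem OrbitA_nodup (D0 : Subgroup GQ) (ϖ : Qbar) :
    ((minpoly (Places.Fix D0) ϖ).aroots Qbar).Nodup :=
  nodup_roots (minpoly.irreducible (OrbitA_isIntegral D0 ϖ)).separable.map

private theorem OrbitA_val (D0 : Subgroup GQ) (ϖ : Qbar) :
    (orb D0 ϖ).val = (minpoly (Places.Fix D0) ϖ).aroots Qbar := by
  rw [orb, Multiset.toFinset_val, Multiset.dedup_eq_self.2 (OrbitA_nodup D0 ϖ)]

private theorem OrbitA_aeval_map {W : Subgroup GQ} (f : Polynomial (Places.Fix W)) {g : GQ}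
    (hg : g ∈ W) (α : Qbar) : Polynomial.aeval (g α) f = g (Polynomial.aeval α f) := by
  rw [Polynomial.aeval_eq_sum_range, Polynomial.aeval_eq_sum_range, map_sum]
  refine Finset.sum_congr rfl fun i _ => ?_
  rw [Algebra.smul_def, Algebra.smul_def, map_mul, map_pow]
  congr 1
  exact (mem_Fix_iff.1 (f.coeff i).2 g hg).symm

/-- `←`: `g` fixes the coefficients of the minimal polynomial (`aeval_map_of_mem` in
`S55/Places/PthPower.lean`);  `→`: `exists_mem_map_eq_of_isRoot` (`S55/Places/Galois.lean`). -/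
theorem mem_orb (D0 : Subgroup GQ) (ϖ y : Qbar) : y ∈ orb D0 ϖ ↔ ∃ g ∈ D0, g ϖ = y := by
  rw [orb, Multiset.mem_toFinset, mem_aroots]
  constructor
  · rintro ⟨-, h⟩
    exact exists_mem_map_eq_of_isRoot D0 ϖ y h
  · rintro ⟨g, hg, rfl⟩
    exact ⟨minpoly.ne_zero (OrbitA_isIntegral D0 ϖ),
      by rw [OrbitA_aeval_map _ hg, minpoly.aeval, map_zero]⟩

theorem self_mem_orb (D0 : Subgroup GQ) (ϖ : Qbar) : ϖ ∈ orb D0 ϖ :=
  (mem_orb D0 ϖ ϖ).2 ⟨1, one_mem _, rfl⟩

/-- the minimal polynomial is separable (char. 0) and splits in `Qbar`. -/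
theorem minpoly_map (D0 : Subgroup GQ) (ϖ : Qbar) :
    (minpoly (Places.Fix D0) ϖ).map (algebraMap (Places.Fix D0) Qbar) =
      ∏ y ∈ orb D0 ϖ, (X - C y) := by
  have h := (IsAlgClosed.splits ((minpoly (Places.Fix D0) ϖ).map
    (algebraMap (Places.Fix D0) Qbar))).eq_prod_roots_of_monic
      ((minpoly.monic (OrbitA_isIntegral D0 ϖ)).map _)
  rw [← aroots_def, ← OrbitA_val] at h
  exact h

theorem aeval_derivative (D0 : Subgroup GQ) (ϖ : Qbar) :
    aeval ϖ (derivative (minpoly (Places.Fix D0) ϖ)) = ∏ y ∈ (orb D0 ϖ).erase ϖ, (ϖ - y) := by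
  classical
  have h := (IsAlgClosed.splits ((minpoly (Places.Fix D0) ϖ).map
    (algebraMap (Places.Fix D0) Qbar))).eval_root_derivative
      ((minpoly.monic (OrbitA_isIntegral D0 ϖ)).map _) (x := ϖ)
      (by rw [← aroots_def, ← OrbitA_val]; exact self_mem_orb D0 ϖ)
  rw [← aroots_def, ← OrbitA_val, derivative_map, eval_map_algebraMap] at h
  rw [h, ← Finset.erase_val]
  rfl

/-- the coefficients of `∏ (X - y)` lie in `Fix D0` (`minpoly_map`) and are integral
(sums of products of the `y = g ϖ`, `|g ϖ| = |ϖ| ≤ 1`; e.g. `∏ (X - C y)` lies in the image of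
`(padicPlace-integers)[X]`, or use `Polynomial.coeff` of a product via `Multiset.esymm`). -/
theorem exists_monic (hD0 : D0 ≤ Dq p) (hϖ : nrm p ϖ ≤ 1) :
    ∃ F : (OW p D0)[X], F.Monic ∧ F.natDegree = (orb D0 ϖ).card ∧
      ∀ β : Qbar, aeval β F = ∏ y ∈ orb D0 ϖ, (β - y) := by
  classical
  set P : Qbar[X] := ∏ y ∈ orb D0 ϖ, (X - C y) with hP
  have hlift : P ∈ lifts (OW p ⊥).subtype := by
    refine Subsemiring.prod_mem _ fun y hy => ?_
    obtain ⟨g, hg, rfl⟩ := (mem_orb D0 ϖ y).1 hy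
    have hmem : g ϖ ∈ OW p ⊥ := by
      refine ⟨by rw [nrm_map_of_mem_Dq p (hD0 hg)]; exact hϖ, fun σ hσ => ?_⟩
      rw [Subgroup.mem_bot.1 hσ]
      rfl
    exact ⟨X - C ⟨g ϖ, hmem⟩, by simp⟩
  have hcoef : (↑P.coeffs : Set Qbar) ⊆ ↑(OW p D0) := by
    intro c hc
    obtain ⟨n, -, rfl⟩ := Polynomial.mem_coeffs_iff.1 hc
    obtain ⟨c', hc'⟩ := (lifts_iff_coeff_lifts P).1 hlift n
    refine ⟨?_, ?_⟩
    · rw [← hc']
      exact c'.2.1
    · rw [hP, ← minpoly_map, coeff_map]
      exact mem_Fix_iff.1 ((minpoly (Places.Fix D0) ϖ).coeff n).2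
  refine ⟨P.toSubring (OW p D0) hcoef, ?_, ?_, fun β => ?_⟩
  · rw [monic_toSubring]
    exact monic_prod_of_monic _ _ fun y _ => monic_X_sub_C y
  · rw [natDegree_toSubring, hP]
    exact natDegree_finsetProd_X_sub_C_eq_card _ _
  · have h : aeval β (P.toSubring (OW p D0) hcoef)
        = eval β ((P.toSubring (OW p D0) hcoef).map (OW p D0).subtype) :=
      (eval_map_algebraMap _ _).symm
    rw [h, map_toSubring, hP, eval_prod]
    simp

/-- `#orb = deg minpoly ≤ [Fix DM : Fix D0] = e`, and `≥ e` because `1, ϖ, …, ϖ^(e-1)` are linearly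
independent over `Fix D0` (`nrm_sum_pow_le_iff` with `T.nrm_pow_index`, `T.val0`): a non zero polynomial
of degree `< e` over `Fix D0` does not vanish at `ϖ`.  (Alternatively: the stabiliser of `ϖ` in `D0` is
`DM` by `exists_coeffs` + `IsOpenIn.mem_of_fixes`, orbit-stabiliser.) -/
theorem TotRam.card_orb (T : TotRam p D0 DM ϖ) : (orb D0 ϖ).card = (DM.subgroupOf D0).index := by
  classical
  have hint : IsIntegral (Places.Fix D0) ϖ :=
    ((AlgebraicClosure.isAlgebraic ℚ).isAlgebraic ϖ).isIntegral.tower_top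
  have hinj : Function.Injective (algebraMap (Places.Fix D0) Qbar) :=
    (algebraMap (Places.Fix D0) Qbar).injective
  -- `#orb = deg minpoly`
  have hdeg : (orb D0 ϖ).card = (minpoly (Places.Fix D0) ϖ).natDegree := by
    have h := congrArg natDegree (minpoly_map D0 ϖ)
    rw [natDegree_map_eq_of_injective hinj, natDegree_finsetProd_X_sub_C_eq_card] at h
    exact h.symm
  rw [hdeg]
  apply le_antisymm
  · -- `deg minpoly ≤ e`
    obtain ⟨s, -, hcard, h1, f, hf⟩ := T.openM.exists_charpoly T.mem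
    have hmon' : (f.map (algebraMap (Places.Fix D0) Qbar)).Monic := by
      rw [hf]
      exact monic_multiset_prod_of_monic _ _ fun g _ => monic_X_sub_C _
    have hmon : f.Monic := monic_of_injective hinj hmon'
    have hroot : aeval ϖ f = 0 := by
      rw [← eval_map_algebraMap, hf, eval_multiset_prod]
      apply Multiset.prod_eq_zero
      rw [Multiset.mem_map]
      refine ⟨X - C ((1 : GQ) ϖ), Multiset.mem_map.2 ⟨1, h1, rfl⟩, ?_⟩
      simp
    have hfdeg : f.natDegree = (DM.subgroupOf D0).index := by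
      rw [← natDegree_map_eq_of_injective hinj f, hf,
        natDegree_multiset_prod_of_monic _ (by
          intro g hg
          obtain ⟨σ, -, rfl⟩ := Multiset.mem_map.1 hg
          exact monic_X_sub_C _), Multiset.map_map]
      simp [hcard]
    rw [← hfdeg]
    exact natDegree_le_natDegree (minpoly.min _ _ hmon hroot)
  · -- `e ≤ deg minpoly`
    by_contra hlt
    push Not at hlt
    set e := (DM.subgroupOf D0).index with he
    set P := minpoly (Places.Fix D0) ϖ with hP
    have h0 : aeval ϖ P = 0 := minpoly.aeval _ _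
    rw [aeval_eq_sum_range' hlt, Finset.sum_range] at h0
    have h1 := (nrm_sum_pow_le_iff (p := p) T.val0 T.nrm_pow_index
      (fun i : Fin e => ((P.coeff (i : ℕ) : Places.Fix D0) : Qbar)) (fun i => (P.coeff (i : ℕ)).2)
      0 le_rfl).1 (by
        have : ∑ i : Fin e, ((P.coeff (i : ℕ) : Places.Fix D0) : Qbar) * ϖ ^ (i : ℕ) = 0 := by
          rw [← h0]
          exact Finset.sum_congr rfl fun i _ => (Algebra.smul_def (P.coeff (i : ℕ)) (ϖ ^ (i : ℕ))).symm
        rw [this, nrm_zero]) ⟨P.natDegree, hlt⟩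
    have h2 : P.coeff P.natDegree = 1 := (minpoly.monic hint).coeff_natDegree
    simp only [h2] at h1
    have h3 : 0 < nrm p ϖ ^ P.natDegree := pow_pos ((nrm_pos_iff p).2 T.ne) _
    have h4 : nrm p (((1 : Places.Fix D0)) : Qbar) = 1 := by
      rw [show (((1 : Places.Fix D0)) : Qbar) = 1 from rfl, nrm_one]
    rw [h4, one_mul] at h1
    exact absurd h1 (not_le.2 h3)

end Fermat.Agent.S56.F.Ram

end
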