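/-
S56 / F / Ram / Open : the kernel of the action on the points of an order is open and normal. (helper6)
TASK  S56/F-Ram-Open.
-/
import Fermat.Agent.S56.F.Ram.Defs
import Fermat.Agent.S56.F.Basic

set_option autoImplicit false

noncomputable section

namespace Fermat.Agent.S56.F.Ram

open Fermat.Agent.S55 Fermat.Agent.S55.Places

variable {D0 DM : Subgroup GQ} {R : Subring Qbar} {Γ : Subgroup GQ} {E : Type} [AddCommGroup E]
  {act : GQ → E → E} {H : Subalgebra R (E → Qbar)}

/-- Let `S` be a finite set of `R`-module generators of `H` (`h.fg`) and `K := ℚ(f x : f ∈ S, x ∈ E)`, a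
number field (`IntermediateField.finiteDimensional_adjoin` with `Algebra.IsIntegral`/`isAlgebraic`).
If `g ∈ D0` fixes `K` then for `x ∈ E`, `y := act g x` satisfies `f y = g (f x) = f x` for `f ∈ S`; two
points with the same values of all `f ∈ S` have the same values of all `f ∈ H` (`R`-linear combinations:
`Submodule.span_induction`), hence are equal (`Ord.ext_point`). -/
theorem isOpenIn_ker [Finite E] (h : Ord R Γ act H) (hΓ : D0 ≤ Γ)
    (hDM : ∀ g, g ∈ DM ↔ g ∈ D0 ∧ ∀ x, act g x = x) : IsOpenIn D0 DM := by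
  classical
  obtain ⟨n, s, hs⟩ := Submodule.fg_iff_exists_fin_generating_family.1 h.fg
  have hmem : ∀ i, s i ∈ H := by
    intro i
    have : s i ∈ Submodule.span R (Set.range s) := Submodule.subset_span ⟨i, rfl⟩
    rw [hs] at this
    exact this
  have hsep : ∀ x y, (∀ i, s i x = s i y) → x = y := by
    intro x y hxy
    apply h.ext_point
    intro f hf
    have hf' : f ∈ Submodule.span R (Set.range s) := by rw [hs]; exact hf
    clear hf
    induction hf' using Submodule.span_induction with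
    | mem f hf => obtain ⟨i, rfl⟩ := hf; exact hxy i
    | zero => rfl
    | add f g _ _ hf hg => simp only [Pi.add_apply, hf, hg]
    | smul a f _ hf => simp only [Pi.smul_apply, hf]
  refine ⟨fun g hg => ((hDM g).1 hg).1,
    IntermediateField.adjoin ℚ (Set.range fun ix : Fin n × E => s ix.1 ix.2), ?_, ?_⟩
  · have h1 := isAlgClosureQbar
    have halg : Algebra.IsAlgebraic ℚ Qbar := IsAlgClosure.isAlgebraic
    apply IntermediateField.finiteDimensional_adjoin
    intro y _
    exact (halg.isAlgebraic y).isIntegral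
  · rintro g ⟨hg0, hgK⟩
    refine (hDM g).2 ⟨hg0, fun x => hsep _ _ fun i => ?_⟩
    rw [h.equiv _ (hmem i) g (hΓ hg0)]
    exact (IntermediateField.mem_fixingSubgroup_iff _ _).1 hgK (s i x)
      (IntermediateField.subset_adjoin _ _ ⟨(i, x), rfl⟩)

/-- `Ord.act_mul`, `Ord.act_act_inv`. -/
theorem normal_ker (h : Ord R Γ act H) (hΓ : D0 ≤ Γ)
    (hDM : ∀ g, g ∈ DM ↔ g ∈ D0 ∧ ∀ x, act g x = x) :
    ∀ g ∈ D0, ∀ k ∈ DM, g * k * g⁻¹ ∈ DM := by
  intro g hg k hk
  obtain ⟨hk0, hkx⟩ := (hDM k).1 hk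
  refine (hDM _).2 ⟨mul_mem (mul_mem hg hk0) (inv_mem hg), fun x => ?_⟩
  rw [h.act_mul (mul_mem (hΓ hg) (hΓ hk0)) (inv_mem (hΓ hg)), h.act_mul (hΓ hg) (hΓ hk0), hkx,
    h.act_act_inv (hΓ hg)]

end Fermat.Agent.S56.F.Ram

end
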