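/-
S56 / F / Ram / Theta : the substitution `ϖ ↦ β` as an element of the group algebra.   (helper6)
TASK  S56/F-Ram-Theta.
-/
import Fermat.Agent.S56.F.Ram.Orbit
import Fermat.Agent.S56.F.Lift.Pair
import Fermat.Agent.S56.F.Basic

set_option autoImplicit false

noncomputable section

namespace Fermat.Agent.S56.F.Ram

open Fermat.Agent.S55 Fermat.Agent.S55.Places Polynomial Fermat.Agent.S56.F.Lift

variable {p : ℕ} [Fact p.Prime] {D0 : Subgroup GQ} {ϖ : Qbar}
  {R : Subring Qbar} {Γ : Subgroup GQ} {E : Type} [AddCommGroup E]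
  {act : GQ → E → E} {H : Subalgebra R (E → Qbar)}

/-- For `y ∈ orb D0 ϖ` choose `g_y ∈ D0` with `g_y ϖ = y` (`mem_orb`).
`c x := ∑ y ∈ orb D0 ϖ, single (act g_y x) ((Lagrange.basis (orb D0 ϖ) id y).eval β)`.  Then
`⟨c x, f⟩ = ∑ ℓ_y(β) f (g_y x) = ∑ ℓ_y(β) g_y (f x) = ∑ ℓ_y(β) g_y (G(ϖ)) = ∑ ℓ_y(β) G(y)` (`map_aeval`)
`= G(β)` by Lagrange interpolation (`Lagrange.eq_interpolate` / `Lagrange.sum_basis`-type lemmas for
the polynomial `G.map (algebraMap _ Qbar)` of degree `< #orb`). -/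
theorem exists_theta (h : Ord R Γ act H) (hΓ : D0 ≤ Γ) (ϖ β : Qbar) :
    ∃ c : E → AddMonoidAlgebra Qbar E, ∀ x : E, ∀ f ∈ H, ∀ G : (OW p D0)[X],
      G.natDegree < (orb D0 ϖ).card → aeval ϖ G = f x → pair (c x) f = aeval β G := by
  classical
  have hg : ∀ y : Qbar, ∃ g : GQ, y ∈ orb D0 ϖ → (g ∈ D0 ∧ g ϖ = y) := by
    intro y
    by_cases hy : y ∈ orb D0 ϖ
    · obtain ⟨g, hg, hgy⟩ := (mem_orb D0 ϖ y).1 hy
      exact ⟨g, fun _ => ⟨hg, hgy⟩⟩
    · exact ⟨1, fun h => absurd h hy⟩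
  choose g hg using hg
  refine ⟨fun x => ∑ y ∈ orb D0 ϖ, AddMonoidAlgebra.single (act (g y) x)
    ((Lagrange.basis (orb D0 ϖ) id y).eval β), ?_⟩
  intro x f hf G hdeg hGx
  have hsum : ∀ (s : Finset Qbar) (F : Qbar → AddMonoidAlgebra Qbar E),
      pair (∑ y ∈ s, F y) f = ∑ y ∈ s, pair (F y) f := by
    intro s F
    induction s using Finset.induction_on with
    | empty => simp [pair_zero]
    | insert a s ha ih => rw [Finset.sum_insert ha, Finset.sum_insert ha, pair_add, ih]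
  have h1 : ∀ y ∈ orb D0 ϖ, pair (AddMonoidAlgebra.single (act (g y) x)
      ((Lagrange.basis (orb D0 ϖ) id y).eval β)) f
      = (Lagrange.basis (orb D0 ϖ) id y).eval β * (G.map (algebraMap (OW p D0) Qbar)).eval y := by
    intro y hy
    obtain ⟨hgD, hgy⟩ := hg y hy
    rw [pair_single, h.equiv f hf (g y) (hΓ hgD) x, ← hGx, map_aeval G hgD, hgy,
      eval_map_algebraMap]
  show pair (∑ y ∈ orb D0 ϖ, AddMonoidAlgebra.single (act (g y) x)
    ((Lagrange.basis (orb D0 ϖ) id y).eval β)) f = _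
  rw [hsum, Finset.sum_congr rfl h1]
  have hdeg' : (G.map (algebraMap (OW p D0) Qbar)).degree < (orb D0 ϖ).card :=
    degree_map_le.trans_lt (degree_le_natDegree.trans_lt (by exact_mod_cast hdeg))
  have hL := Lagrange.eq_interpolate (s := orb D0 ϖ) (v := id)
    (f := G.map (algebraMap (OW p D0) Qbar)) (Set.injOn_id _) hdeg'
  rw [← eval_map_algebraMap]
  conv_rhs => rw [hL]
  rw [Lagrange.interpolate_apply, eval_finsetSum]
  refine Finset.sum_congr rfl (fun y _ => ?_)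
  rw [eval_mul, eval_C, mul_comm]
  rfl

end Fermat.Agent.S56.F.Ram

end
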