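/-
S56 / F / Ram / TraceAux : proof of `exists_trace_one` (task S56/F-Ram-Trace, helper4).
-/
import Fermat.Agent.S56.F.Ram.Defs
import Fermat.Agent.S55.Places.Unram

set_option autoImplicit false

noncomputable section

namespace Fermat.Agent.S56.F.Ram

open Fermat.Agent.S55 Fermat.Agent.S55.Places Polynomial

variable {p : ℕ} [Fact p.Prime] {D0 : Subgroup GQ}

/-- an integral element of trace one in an unramified cyclic extension. -/
theorem TraceAux_exists_trace_one (hD0 : IsOpenIn (Dq p) D0) {n : ℕ} [NeZero n]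
    (χ : D0 →* Multiplicative (ZMod n)) (hχo : IsOpenIn D0 (χ.ker.map D0.subtype))
    (hχI : D0 ⊓ Iq p ≤ χ.ker.map D0.subtype) (τ : D0) (hτ : χ τ = Multiplicative.ofAdd 1) :
    ∃ a : Qbar, nrm p a ≤ 1 ∧ (∀ g : D0, χ g = 1 → (g : GQ) a = a) ∧
      ∑ k ∈ Finset.range n, ((τ : GQ) ^ k) a = 1 := by
  classical
  have hmemU : ∀ g : D0, (g : GQ) ∈ χ.ker.map D0.subtype ↔ χ g = 1 := by
    intro g
    constructor
    · rintro ⟨g', hg', h⟩
      have : g' = g := Subtype.ext h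
      rw [← this]
      exact hg'
    · intro h
      exact ⟨g, h, rfl⟩
  have hD : ∀ k : ℕ, ((τ : GQ) ^ k) ∈ Dq p := fun k => (Dq p).pow_mem (hD0.1 τ.2) k
  have hχpow : ∀ k : ℕ, χ (τ ^ k) = Multiplicative.ofAdd (k : ZMod n) := by
    intro k
    rw [map_pow, hτ, ← ofAdd_nsmul, nsmul_one]
  -- the characters are distinct
  have hinj : Function.Injective
      (fun k : Fin n => Unram.chi (q := p) (χ.ker.map D0.subtype) _ (hD k)) := by
    intro k l hkl
    have hmem : (((τ ^ (k : ℕ))⁻¹ * τ ^ (l : ℕ) : D0) : GQ) ∈ χ.ker.map D0.subtype := by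
      refine Unram.mem_of_trivial_on_residue hD0 hχo hχI (SetLike.coe_mem _) ?_
      intro ξ hξ h1
      have h2 := DFunLike.congr_fun hkl (⟨⟨ξ, hξ⟩, h1⟩ : ringOf p (χ.ker.map D0.subtype))
      have h3 : nrm p (((τ : GQ) ^ (l : ℕ)) ξ - ((τ : GQ) ^ (k : ℕ)) ξ) < 1 := by
        have h4 := sub_eq_zero.2 h2.symm
        simp only [Unram.chi, Unram.red, MonoidHom.coe_mk, OneHom.coe_mk] at h4
        rw [← map_sub, Unram.residue_eq_zero_iff] at h4
        exact h4
      have h5 : (((τ ^ (k : ℕ))⁻¹ * τ ^ (l : ℕ) : D0) : GQ) ξ - ξ =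
          ((τ : GQ) ^ (k : ℕ))⁻¹ (((τ : GQ) ^ (l : ℕ)) ξ - ((τ : GQ) ^ (k : ℕ)) ξ) := by
        rw [map_sub]
        congr 1
        show ξ = (((τ : GQ) ^ (k : ℕ))⁻¹ * ((τ : GQ) ^ (k : ℕ))) ξ
        rw [inv_mul_cancel]
        rfl
      rw [h5, nrm_map_of_mem_Dq p ((Dq p).inv_mem (hD k))]
      exact h3
    rw [hmemU, map_mul, map_inv, hχpow, hχpow, inv_mul_eq_one] at hmem
    have h6 : ((k : ℕ) : ZMod n) = ((l : ℕ) : ZMod n) := Multiplicative.ofAdd.injective hmem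
    rw [ZMod.natCast_eq_natCast_iff'] at h6
    rw [Nat.mod_eq_of_lt k.2, Nat.mod_eq_of_lt l.2] at h6
    exact Fin.ext h6
  have hli : LinearIndependent (Unram.kq p)
      (fun k : Fin n =>
        (Unram.chi (q := p) (χ.ker.map D0.subtype) _ (hD k) :
          ringOf p (χ.ker.map D0.subtype) → Unram.kq p)) :=
    (linearIndependent_monoidHom (ringOf p (χ.ker.map D0.subtype)) (Unram.kq p)).comp _ hinj
  have hex : ∃ ξ : ringOf p (χ.ker.map D0.subtype), ∑ k : Fin n,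
      Unram.chi (q := p) (χ.ker.map D0.subtype) _ (hD k) ξ ≠ 0 := by
    by_contra hcon
    push Not at hcon
    have h0 : ∑ k : Fin n, (1 : Unram.kq p) •
        (Unram.chi (q := p) (χ.ker.map D0.subtype) _ (hD k) :
          ringOf p (χ.ker.map D0.subtype) → Unram.kq p) = 0 := by
      funext ξ
      rw [Finset.sum_apply]
      simpa using hcon ξ
    have h1 := Fintype.linearIndependent_iff.1 hli _ h0 ⟨0, Nat.pos_of_ne_zero (NeZero.ne n)⟩
    exact one_ne_zero h1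
  obtain ⟨ξ, hξ⟩ := hex
  set x : Qbar := ((ξ : Places.Fix (χ.ker.map D0.subtype)) : Qbar) with hx
  have hx1 : nrm p x ≤ 1 := ξ.2
  have hxfix : ∀ g : D0, χ g = 1 → (g : GQ) x = x := fun g hg =>
    (mem_Fix_iff).1 (ξ : Places.Fix (χ.ker.map D0.subtype)).2 _ ((hmemU g).2 hg)
  set t : Qbar := ∑ k ∈ Finset.range n, ((τ : GQ) ^ k) x with ht
  -- `|t| = 1`
  simp only [Unram.chi, Unram.red, MonoidHom.coe_mk, OneHom.coe_mk] at hξ
  simp only [← map_sum] at hξ
  rw [Ne, Unram.residue_eq_zero_iff, not_lt] at hξ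
  have hcoe : ((∑ k : Fin n,
      (⟨((τ : GQ) ^ (k : ℕ)) x, (mem_padicPlace_iff_nrm p).2
        (by rw [nrm_map_of_mem_Dq p (hD k)]; exact hx1)⟩ : padicPlace p) : padicPlace p) : Qbar)
      = t := by
    rw [ht, ← Fin.sum_univ_eq_sum_range (fun k => ((τ : GQ) ^ k) x) n]
    push_cast
    rfl
  have htle : nrm p t ≤ 1 := by
    rw [← hcoe]
    exact (mem_padicPlace_iff_nrm p).1 (SetLike.coe_mem _)
  rw [hcoe] at hξ
  have ht1 : nrm p t = 1 := le_antisymm htle hξ
  have ht0 : t ≠ 0 := by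
    rw [← nrm_pos_iff p, ht1]
    exact one_pos
  -- `t` is fixed by `τ`
  have hτn : ((τ : GQ) ^ n) x = x := by
    have h1 : χ (τ ^ n) = 1 := by
      rw [hχpow, ZMod.natCast_self]
      rfl
    exact hxfix (τ ^ n) h1
  have hτt : (τ : GQ) t = t := by
    have h1 : (τ : GQ) t = ∑ k ∈ Finset.range n, ((τ : GQ) ^ (k + 1)) x := by
      rw [ht, map_sum]
      refine Finset.sum_congr rfl fun k _ => ?_
      rw [pow_succ']
      rfl
    have h2 := Finset.sum_range_succ (fun k => ((τ : GQ) ^ k) x) n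
    have h3 := Finset.sum_range_succ' (fun k => ((τ : GQ) ^ k) x) n
    rw [h1]
    have h4 : ((τ : GQ) ^ 0) x = x := by
      rw [pow_zero]
      rfl
    rw [h4] at h3
    rw [hτn] at h2
    exact add_right_cancel (h3.symm.trans h2)
  have hτkt : ∀ k : ℕ, ((τ : GQ) ^ k) t = t := by
    intro k
    induction k with
    | zero =>
      rw [pow_zero]
      rfl
    | succ k ih =>
      rw [pow_succ]
      show ((τ : GQ) ^ k) ((τ : GQ) t) = t
      rw [hτt, ih]
  -- `t` is fixed by `ker χ`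
  have hgt : ∀ g : D0, χ g = 1 → (g : GQ) t = t := by
    intro g hg
    rw [ht, map_sum]
    refine Finset.sum_congr rfl fun k _ => ?_
    have h1 : χ ((τ ^ k)⁻¹ * g * τ ^ k) = 1 := by
      rw [map_mul, map_mul, hg, mul_one, map_inv, inv_mul_cancel]
    have h2 := hxfix _ h1
    have h3 : (g : GQ) (((τ : GQ) ^ k) x) =
        ((τ : GQ) ^ k) ((((τ ^ k)⁻¹ * g * τ ^ k : D0) : GQ) x) := by
      show ((g : GQ) * (τ : GQ) ^ k) x = ((τ : GQ) ^ k * (((τ ^ k)⁻¹ * g * τ ^ k : D0) : GQ)) x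
      congr 1
      push_cast
      group
    rw [h3, h2]
  refine ⟨x / t, ?_, ?_, ?_⟩
  · rw [nrm_div, ht1, div_one]
    exact hx1
  · intro g hg
    rw [map_div₀, hxfix g hg, hgt g hg]
  · have h1 : ∀ k ∈ Finset.range n, ((τ : GQ) ^ k) (x / t) = ((τ : GQ) ^ k) x / t := by
      intro k _
      rw [map_div₀, hτkt]
    rw [Finset.sum_congr rfl h1, ← Finset.sum_div, ← ht, div_self ht0]

end Fermat.Agent.S56.F.Ram

end
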