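/-
S56 / F / Ram / Twist : twisting a totally ramified extension by an unramified cyclic one.   (helper6)
TASKS  S56/F-Ram-Trace (`exists_trace_one`),  S56/F-Ram-Twist (`TotRam.exists_twist`).
-/
import Fermat.Agent.S56.F.Ram.Defs
import Fermat.Agent.S55.Places.UnramQuot
import Fermat.Agent.S56.F.Ram.TraceAux

set_option autoImplicit false

noncomputable section

namespace Fermat.Agent.S56.F.Ram

open Fermat.Agent.S55 Fermat.Agent.S55.Places Polynomial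

variable {p : ℕ} [Fact p.Prime] {D0 DM : Subgroup GQ} {ϖ : Qbar}

/-- **an integral element of trace one in an unramified cyclic extension.**
`U = ker χ` is open in `D0` and contains `D0 ⊓ I`; `τ` generates `D0/U`.  As in the proof of
`exists_nrm_eq_of_unramified` (`S55/Places/Unram.lean`, take `x = 1` there): the `n` characters
`ξ ↦ red (τ^k ξ)` of the monoid of integers of `Fix U` are distinct (`mem_of_trivial_on_residue`), hence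
linearly independent (`linearIndependent_monoidHom`), so some integral `ξ ∈ Fix U` has
`|∑_{k<n} τ^k ξ| = 1`; `t := ∑ τ^k ξ` is fixed by `τ` and by `U`, hence by `D0`; `a := ξ / t`. -/
theorem exists_trace_one (hD0 : IsOpenIn (Dq p) D0) {n : ℕ} [NeZero n]
    (χ : D0 →* Multiplicative (ZMod n)) (hχo : IsOpenIn D0 (χ.ker.map D0.subtype))
    (hχI : D0 ⊓ Iq p ≤ χ.ker.map D0.subtype) (τ : D0) (hτ : χ τ = Multiplicative.ofAdd 1) :
    ∃ a : Qbar, nrm p a ≤ 1 ∧ (∀ g : D0, χ g = 1 → (g : GQ) a = a) ∧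
      ∑ k ∈ Finset.range n, ((τ : GQ) ^ k) a = 1 :=
  TraceAux_exists_trace_one hD0 χ hχo hχI τ hτ

/-- **the twist.**  Let `n > 0` be minimal (or any) with `σ0^n ∈ DM` (finite index), `χ : D0 → ℤ/n` the
unramified character of `exists_unramified_char T.open0 n`.  Pick `φ0` with `χ φ0 = 1`; `φ0 = i m` with
`i ∈ I`, `m ∈ DM` (`T.tot`), so `χ m = 1` (`χ i = 0`); `σ0 = i' m'`, so `χ i' = 0` and `i'` acts on `Fix DM` like
`σ0`.  `τ := i' m`: `χ τ = 1`, `τ x = σ0 x` for all `x ∈ Fix DM`... (`m x = x`; use `T.normal` where needed).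
`a` from `exists_trace_one`, `β := ∑_{k<n} τ^k (a ϖ)`.  `τ^n` fixes `a` (`χ (τ^n) = 0`) and `ϖ`
(`τ^n ϖ = σ0^n ϖ = ϖ`), so `τ β = β` (shift the sum).  `β - ϖ = ∑ τ^k a (τ^k ϖ - ϖ)` and
`|τ^k ϖ - ϖ| ≤ |τ ϖ - ϖ|` by induction (`τ^(k+1) ϖ - ϖ = τ (τ^k ϖ - ϖ) + (τ ϖ - ϖ)`, `τ ∈ D`). -/
theorem TotRam.exists_twist (T : TotRam p D0 DM ϖ) {σ0 : GQ} (hσ0 : σ0 ∈ D0) :
    ∃ (β : Qbar) (τ : GQ), τ ∈ D0 ∧ τ ϖ = σ0 ϖ ∧ τ β = β ∧
      nrm p (β - ϖ) ≤ nrm p (σ0 ϖ - ϖ) := by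
  classical
  -- `n > 0` with `σ0 ^ n ∈ DM`
  obtain ⟨n, hn0, -, hnM⟩ :=
    Subgroup.exists_pow_mem_of_index_ne_zero T.openM.finiteIndex (⟨σ0, hσ0⟩ : D0)
  have hnM' : σ0 ^ n ∈ DM := by
    have := Subgroup.mem_subgroupOf.1 hnM
    simpa using this
  have : NeZero n := ⟨hn0.ne'⟩
  obtain ⟨χ, hχs, hχo, hχI⟩ := exists_unramified_char T.open0 n
  have hD0D : D0 ≤ Dq p := T.open0.1
  have hDM0 : DM ≤ D0 := T.openM.1
  -- `χ` is trivial on inertia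
  have hχi : ∀ (i : GQ) (hi : i ∈ Iq p), χ ⟨i, T.inertia hi⟩ = 1 := by
    intro i hi
    obtain ⟨g, hg, hgi⟩ := hχI ⟨T.inertia hi, hi⟩
    have : g = ⟨i, T.inertia hi⟩ := Subtype.ext hgi
    rw [← this]
    exact hg
  obtain ⟨φ0, hφ0⟩ := hχs (Multiplicative.ofAdd 1)
  obtain ⟨i, hi, him⟩ := T.tot φ0 φ0.2
  obtain ⟨i', hi', him'⟩ := T.tot σ0 hσ0
  -- `m := i⁻¹ φ0 ∈ DM`, `χ m = 1`
  have hχm : χ ⟨i⁻¹ * φ0, hDM0 him⟩ = Multiplicative.ofAdd 1 := by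
    have h1 : (⟨i⁻¹ * φ0, hDM0 him⟩ : D0) = (⟨i, T.inertia hi⟩ : D0)⁻¹ * φ0 := Subtype.ext rfl
    rw [h1, map_mul, map_inv, hχi i hi, inv_one, one_mul, hφ0]
  have hτD0 : i' * (i⁻¹ * φ0) ∈ D0 := D0.mul_mem (T.inertia hi') (hDM0 him)
  have hχτ : χ ⟨i' * (i⁻¹ * φ0), hτD0⟩ = Multiplicative.ofAdd 1 := by
    have h1 : (⟨i' * (i⁻¹ * φ0), hτD0⟩ : D0) =
        (⟨i', T.inertia hi'⟩ : D0) * ⟨i⁻¹ * φ0, hDM0 him⟩ := Subtype.ext rfl
    rw [h1, map_mul, hχi i' hi', one_mul, hχm]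
  -- `τ = σ0` on `Fix DM`
  obtain ⟨τ, hτD0, hχτ, hτσ⟩ : ∃ (τ : GQ) (h : τ ∈ D0), χ ⟨τ, h⟩ = Multiplicative.ofAdd 1 ∧
      ∀ x ∈ Places.Fix DM, τ x = σ0 x := by
    refine ⟨i' * (i⁻¹ * φ0), hτD0, hχτ, ?_⟩
    intro x hx
    rw [mem_Fix_iff] at hx
    have h1 : (i' * (i⁻¹ * φ0)) x = i' x := by
      rw [AlgEquiv.mul_apply, hx _ him]
    have h2 : σ0 x = i' x := by
      have : σ0 = i' * (i'⁻¹ * σ0) := by group
      rw [this, AlgEquiv.mul_apply, hx _ him']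
    rw [h1, h2]
  -- `Fix DM` is stable under `D0`
  have hstab : ∀ g ∈ D0, ∀ x ∈ Places.Fix DM, g x ∈ Places.Fix DM := by
    intro g hg x hx
    rw [mem_Fix_iff] at hx ⊢
    intro h hh
    have h1 := hx _ (T.normal g⁻¹ (D0.inv_mem hg) h hh)
    rw [inv_inv] at h1
    have h2 : h (g x) = g ((g⁻¹ * h * g) x) := by
      simp only [AlgEquiv.mul_apply]
      rw [← AlgEquiv.mul_apply g g⁻¹, mul_inv_cancel, AlgEquiv.one_apply]
    rw [h2, h1]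
  have hpow : ∀ k : ℕ, (τ ^ k) ϖ = (σ0 ^ k) ϖ ∧ (σ0 ^ k) ϖ ∈ Places.Fix DM := by
    intro k
    induction k with
    | zero => exact ⟨by simp, by simpa using T.mem⟩
    | succ k ih =>
      have e1 : (σ0 ^ (k + 1)) ϖ = σ0 ((σ0 ^ k) ϖ) := by
        rw [pow_succ', AlgEquiv.mul_apply]
      have e2 : (τ ^ (k + 1)) ϖ = τ ((τ ^ k) ϖ) := by
        rw [pow_succ', AlgEquiv.mul_apply]
      refine ⟨?_, ?_⟩
      · rw [e1, e2, ih.1, hτσ _ ih.2]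
      · rw [e1]; exact hstab σ0 hσ0 _ ih.2
  obtain ⟨a, ha1, haf, hasum⟩ := exists_trace_one T.open0 χ hχo hχI ⟨τ, hτD0⟩ hχτ
  have hasum' : ∑ k ∈ Finset.range n, (τ ^ k) a = 1 := hasum
  have hτD : τ ∈ Dq p := hD0D hτD0
  have hτkD : ∀ k : ℕ, τ ^ k ∈ Dq p := fun k => (Dq p).pow_mem hτD k
  -- `τ ^ n` fixes `a` and `ϖ`
  have hna : (τ ^ n) a = a := by
    have h1 : χ ((⟨τ, hτD0⟩ : D0) ^ n) = 1 := by
      rw [map_pow, hχτ, ← ofAdd_nsmul]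
      simp
    exact haf _ h1
  have hnϖ : (τ ^ n) ϖ = ϖ := by
    rw [(hpow n).1]
    exact (mem_Fix_iff.1 T.mem) _ hnM'
  refine ⟨∑ k ∈ Finset.range n, (τ ^ k) (a * ϖ), τ, hτD0, hτσ ϖ T.mem, ?_, ?_⟩
  · rw [map_sum]
    have h1 : ∀ k : ℕ, τ ((τ ^ k) (a * ϖ)) = (τ ^ (k + 1)) (a * ϖ) := by
      intro k
      rw [pow_succ', AlgEquiv.mul_apply]
    simp only [h1]
    have h2 := Finset.sum_range_succ (fun k => (τ ^ k) (a * ϖ)) n
    have h3 := Finset.sum_range_succ' (fun k => (τ ^ k) (a * ϖ)) n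
    have h4 : (τ ^ n) (a * ϖ) = a * ϖ := by rw [map_mul, hna, hnϖ]
    have h5 : (τ ^ 0) (a * ϖ) = a * ϖ := by simp
    rw [h2, h4] at h3
    simp only [h5] at h3
    exact (add_right_cancel h3).symm
  · have h1 : ∑ k ∈ Finset.range n, (τ ^ k) (a * ϖ) - ϖ =
        ∑ k ∈ Finset.range n, (τ ^ k) a * ((τ ^ k) ϖ - ϖ) := by
      have e : ∑ k ∈ Finset.range n, (τ ^ k) a * ((τ ^ k) ϖ - ϖ) =
          ∑ k ∈ Finset.range n, (τ ^ k) (a * ϖ) - (∑ k ∈ Finset.range n, (τ ^ k) a) * ϖ := by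
        rw [Finset.sum_mul, ← Finset.sum_sub_distrib]
        refine Finset.sum_congr rfl fun k _ => ?_
        rw [map_mul]; ring
      rw [e, hasum', one_mul]
    rw [h1]
    have h2 : ∀ k : ℕ, nrm p ((τ ^ k) ϖ - ϖ) ≤ nrm p (σ0 ϖ - ϖ) := by
      intro k
      induction k with
      | zero => simpa using nrm_nonneg p _
      | succ k ih =>
        have e : (τ ^ (k + 1)) ϖ - ϖ = τ ((τ ^ k) ϖ - ϖ) + (τ ϖ - ϖ) := by
          rw [pow_succ', AlgEquiv.mul_apply, map_sub]; ring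
        rw [e]
        refine (nrm_add_le_max p _ _).trans (max_le ?_ ?_)
        · rw [nrm_map_of_mem_Dq p hτD]; exact ih
        · rw [hτσ ϖ T.mem]
    refine nrm_sum_le p _ _ _ (nrm_nonneg p _) fun k _ => ?_
    rw [nrm_mul, nrm_map_of_mem_Dq p (hτkD k)]
    calc nrm p a * nrm p ((τ ^ k) ϖ - ϖ) ≤ 1 * nrm p (σ0 ϖ - ϖ) :=
          mul_le_mul ha1 (h2 k) (nrm_nonneg p _) zero_le_one
      _ = nrm p (σ0 ϖ - ϖ) := one_mul _

end Fermat.Agent.S56.F.Ram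

end
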