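/-
S56 / F / Ram / Main : the RAMIFICATION BOUND  `v(different of K0(E)/K0) ≤ p/(p-1)`.      (helper6)
-/
import Fermat.Agent.S56.F.Ram.Theta
import Fermat.Agent.S56.F.Ram.Twist
import Fermat.Agent.S56.F.Ram.Open
import Fermat.Agent.S56.F.Lift.Main
import Fermat.Agent.S56.F.Torsion

set_option autoImplicit false

noncomputable section

namespace Fermat.Agent.S56.F.Ram

open Fermat.Agent.S55 Fermat.Agent.S55.Places Polynomial Fermat.Agent.S56.F.Lift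

variable {p : ℕ} [Fact p.Prime] {D0 DM : Subgroup GQ} {ϖ : Qbar}
  {R : Subring Qbar} {Γ : Subgroup GQ} {E : Type} [AddCommGroup E]
  {act : GQ → E → E} {H : Subalgebra R (E → Qbar)}

/-- two points whose values are closer than `|p|^(1/(p-1))` are equal. -/
theorem eq_of_close (hR : ∀ r ∈ R, nrm p r ≤ 1) (h : Ord R Γ act H) (hpE : ∀ x : E, p • x = 0)
    {κ : ℝ} (hκ : κ ^ (p - 1) < nrm p (p : Qbar)) {x y : E}
    (hxy : ∀ f ∈ H, nrm p (f y - f x) ≤ κ) : y = x := by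
  by_contra hne
  have hne' : y - x ≠ 0 := sub_ne_zero.2 hne
  obtain ⟨f, hf, hle⟩ := h.torsion' hR x hne' (hpE _)
  rw [add_sub_cancel] at hle
  have h1 : nrm p (f y - f x) ^ (p - 1) ≤ κ ^ (p - 1) :=
    pow_le_pow_left₀ (nrm_nonneg p _) (hxy f hf) _
  rw [nrm_natCast_self] at hκ
  linarith

/-- the core: a substitution `ϖ ↦ β`, `β` fixed by `τ`, `|β| = |ϖ|`, `|F(β)|` small, forces `τ ∈ DM`. -/
theorem core [Finite E] (hR : ∀ r ∈ R, nrm p r ≤ 1) (h : Ord R Γ act H) (hΓ : D0 ≤ Γ)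
    (hpE : ∀ x : E, p • x = 0) (T : TotRam p D0 DM ϖ)
    (hDM : ∀ g, g ∈ DM ↔ g ∈ D0 ∧ ∀ x, act g x = x)
    {β : Qbar} {τ : GQ} (hτ : τ ∈ D0) (hτβ : τ β = β) (hβ : nrm p β = nrm p ϖ)
    (hsmall : nrm p (∏ y ∈ orb D0 ϖ, (β - y)) ^ (p - 1) < nrm p (p : Qbar) ^ p) : τ ∈ DM := by
  classical
  have hp : p.Prime := Fact.out
  have hpp : 0 < nrm p (p : Qbar) := (nrm_pos_iff p).2 (by exact_mod_cast hp.ne_zero)
  set e := (DM.subgroupOf D0).index with hedef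
  have he : nrm p ϖ ^ e = (p : ℝ)⁻¹ := T.nrm_pow_index
  have hcard : (orb D0 ϖ).card = e := T.card_orb
  have hval := T.val0
  have hD0 : D0 ≤ Dq p := T.open0.1
  have epos : 0 < e := Nat.pos_of_ne_zero T.openM.finiteIndex
  obtain ⟨F, hFm, hFd, hFev⟩ := exists_monic (p := p) (D0 := D0) (ϖ := ϖ) hD0 T.lt.le
  obtain ⟨c, hc⟩ := exists_theta (p := p) h hΓ ϖ β
  set ρ := nrm p (∏ y ∈ orb D0 ϖ, (β - y)) with hρdef
  have hρ0 : 0 ≤ ρ := nrm_nonneg p _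
  set κ := ρ / nrm p (p : Qbar) with hκdef
  have hκ : κ ^ (p - 1) < nrm p (p : Qbar) := by
    rw [hκdef, div_pow, div_lt_iff₀ (pow_pos hpp _), ← pow_succ']
    have : p - 1 + 1 = p := Nat.sub_add_cancel hp.one_le
    rwa [this]
  have hexp : ∀ x : E, ∀ f ∈ H, ∃ G : (OW p D0)[X], G.natDegree < e ∧ aeval ϖ G = f x := by
    intro x f hf
    apply expand T.openM hval rfl T.mem he
    refine ⟨h.nrm_le_one hR hf x, fun σ hσ => ?_⟩
    have h1 := (hDM σ).1 hσ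
    rw [← h.equiv f hf σ (hΓ h1.1), h1.2]
  have hβ1 : nrm p β ≤ 1 := by rw [hβ]; exact T.lt.le
  have hpair : ∀ x : E, ∀ f ∈ H, ∀ G : (OW p D0)[X], G.natDegree < e → aeval ϖ G = f x →
      pair (c x) f = aeval β G := by
    intro x f hf G hG hGx
    exact hc x f hf G (by rw [hcard]; exact hG) hGx
  have hF0 : aeval ϖ F = 0 := by
    rw [hFev]
    exact Finset.prod_eq_zero (self_mem_orb D0 ϖ) (sub_self _)
  have hF1 : F ≠ 1 := by
    intro h1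
    rw [h1, natDegree_one, hcard] at hFd
    omega
  have hLL : ∀ x : E, ∃ x' : E, ∀ f ∈ H, nrm p (f x' - pair (c x) f) ≤ κ := by
    intro x
    apply lifting hR h hpE (c x) hsmall
    · intro f hf
      obtain ⟨G, hG, hGx⟩ := hexp x f hf
      rw [hpair x f hf G hG hGx]
      exact nrm_aeval_le_one G hβ1
    · have h1 : pair (c x) 1 = 1 := by
        have := hpair x 1 H.one_mem 1 (by rw [natDegree_one]; exact epos) (by simp)
        simpa using this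
      rw [h1, sub_self]
      simpa [nrm] using hρ0
    · intro f hf g hg
      obtain ⟨Gf, hGf, hGfx⟩ := hexp x f hf
      obtain ⟨Gg, hGg, hGgx⟩ := hexp x g hg
      have hdiv : (Gf * Gg) %ₘ F + F * ((Gf * Gg) /ₘ F) = Gf * Gg := modByMonic_add_div _ F
      have hdeg : ((Gf * Gg) %ₘ F).natDegree < e := by
        have := natDegree_modByMonic_lt (Gf * Gg) hFm hF1
        rwa [hFd, hcard] at this
      have hev : aeval ϖ ((Gf * Gg) %ₘ F) = (f * g) x := by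
        have := congrArg (aeval ϖ) hdiv
        rw [map_add, map_mul, map_mul, hF0, zero_mul, add_zero, hGfx, hGgx] at this
        exact this
      rw [hpair x (f * g) (H.mul_mem hf hg) _ hdeg hev, hpair x f hf Gf hGf hGfx,
        hpair x g hg Gg hGg hGgx]
      have h2 := congrArg (aeval β) hdiv
      rw [map_add, map_mul, map_mul] at h2
      have h3 : aeval β ((Gf * Gg) %ₘ F) - aeval β Gf * aeval β Gg =
          -(aeval β F * aeval β ((Gf * Gg) /ₘ F)) := by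
        rw [← h2]; ring
      rw [h3, nrm_neg, nrm_mul, hFev]
      exact mul_le_of_le_one_right hρ0 (nrm_aeval_le_one _ hβ1)
  choose x' hx' using hLL
  have hτD : τ ∈ Dq p := hD0 hτ
  -- `τ` fixes all `x' x`
  have hfix : ∀ x : E, act τ (x' x) = x' x := by
    intro x
    apply eq_of_close hR h hpE hκ
    intro f hf
    obtain ⟨G, hG, hGx⟩ := hexp x f hf
    have h1 := hx' x f hf
    rw [hpair x f hf G hG hGx] at h1
    have h2 : τ (aeval β G) = aeval β G := by rw [map_aeval G hτ, hτβ]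
    rw [h.equiv f hf τ (hΓ hτ)]
    have h3 : τ (f (x' x)) - f (x' x) =
        τ (f (x' x) - aeval β G) - (f (x' x) - aeval β G) := by
      rw [map_sub, h2]; ring
    rw [h3]
    refine (nrm_sub_le_max p _ _).trans (max_le ?_ h1)
    rw [nrm_map_of_mem_Dq p hτD]
    exact h1
  -- injectivity
  have hinj : Function.Injective x' := by
    intro x₁ x₂ h12
    apply eq_of_close hR h hpE hκ
    intro f hf
    obtain ⟨G₁, hG₁, hGx₁⟩ := hexp x₁ f hf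
    obtain ⟨G₂, hG₂, hGx₂⟩ := hexp x₂ f hf
    have h1 := hx' x₁ f hf
    have h2 := hx' x₂ f hf
    rw [hpair x₁ f hf G₁ hG₁ hGx₁] at h1
    rw [hpair x₂ f hf G₂ hG₂ hGx₂, ← h12] at h2
    have hdeg : (G₁ - G₂).natDegree < e :=
      lt_of_le_of_lt (natDegree_sub_le _ _) (max_lt hG₁ hG₂)
    have h3 := nrm_aeval_eq hval he hβ (G₁ - G₂) hdeg
    rw [map_sub, map_sub, hGx₁, hGx₂] at h3
    rw [← h3]
    have h4 : aeval β G₁ - aeval β G₂ =
        (f (x' x₁) - aeval β G₂) - (f (x' x₁) - aeval β G₁) := by ring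
    rw [h4]
    exact (nrm_sub_le_max p _ _).trans (max_le h2 h1)
  have hsurj : Function.Surjective x' := Finite.injective_iff_surjective.1 hinj
  refine (hDM τ).2 ⟨hτ, fun x => ?_⟩
  obtain ⟨x₀, rfl⟩ := hsurj x
  exact hfix x₀

/-- **the ramification bound.** -/
theorem ram_bound' [Finite E] (hR : ∀ r ∈ R, nrm p r ≤ 1) (h : Ord R Γ act H) (hΓ : D0 ≤ Γ)
    (hpE : ∀ x : E, p • x = 0) (T : TotRam p D0 DM ϖ)
    (hDM : ∀ g, g ∈ DM ↔ g ∈ D0 ∧ ∀ x, act g x = x) :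
    nrm p (p : Qbar) ^ p ≤
      nrm p (aeval ϖ (derivative (minpoly (Places.Fix D0) ϖ))) ^ (p - 1) := by
  classical
  by_contra hcon
  rw [not_le, aeval_derivative] at hcon
  have hp : p.Prime := Fact.out
  have hpp : 0 < nrm p (p : Qbar) := (nrm_pos_iff p).2 (by exact_mod_cast hp.ne_zero)
  have hp1 : nrm p (p : Qbar) < 1 := by
    rw [nrm_natCast_self]
    exact inv_lt_one_of_one_lt₀ (by exact_mod_cast hp.one_lt)
  set e := (DM.subgroupOf D0).index with hedef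
  have he : nrm p ϖ ^ e = (p : ℝ)⁻¹ := T.nrm_pow_index
  have hcard : (orb D0 ϖ).card = e := T.card_orb
  have hϖ0 : 0 ≤ nrm p ϖ := nrm_nonneg p _
  have hA : ∃ y ∈ (orb D0 ϖ).erase ϖ, nrm p (ϖ - y) < nrm p ϖ := by
    by_contra hno
    push Not at hno
    have h1 : nrm p ϖ ^ (e - 1) ≤ nrm p (∏ y ∈ (orb D0 ϖ).erase ϖ, (ϖ - y)) := by
      rw [nrm_prod]
      calc nrm p ϖ ^ (e - 1) = ∏ _y ∈ (orb D0 ϖ).erase ϖ, nrm p ϖ := by
            rw [Finset.prod_const, Finset.card_erase_of_mem (self_mem_orb D0 ϖ), hcard]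
        _ ≤ ∏ y ∈ (orb D0 ϖ).erase ϖ, nrm p (ϖ - y) :=
            Finset.prod_le_prod (fun _ _ => hϖ0) hno
    have h2 : nrm p (p : Qbar) ≤ nrm p ϖ ^ (e - 1) := by
      rw [nrm_natCast_self, ← he]
      exact pow_le_pow_of_le_one hϖ0 T.lt.le (Nat.sub_le e 1)
    have h3 : nrm p (p : Qbar) ^ p ≤ nrm p (p : Qbar) ^ (p - 1) :=
      pow_le_pow_of_le_one hpp.le hp1.le (Nat.sub_le p 1)
    have h4 : nrm p (p : Qbar) ^ (p - 1) ≤
        nrm p (∏ y ∈ (orb D0 ϖ).erase ϖ, (ϖ - y)) ^ (p - 1) :=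
      pow_le_pow_left₀ hpp.le (h2.trans h1) _
    linarith
  obtain ⟨y1, hy1, hy1lt⟩ := hA
  obtain ⟨y0, hy0, hmin⟩ := Finset.exists_min_image ((orb D0 ϖ).erase ϖ)
    (fun y => nrm p (ϖ - y)) ⟨y1, hy1⟩
  have hy0lt : nrm p (ϖ - y0) < nrm p ϖ := (hmin y1 hy1).trans_lt hy1lt
  obtain ⟨σ0, hσ0, hσy⟩ := (mem_orb D0 ϖ y0).1 (Finset.mem_of_mem_erase hy0)
  obtain ⟨β, τ, hτ, hτϖ, hτβ, hβϖ⟩ := T.exists_twist hσ0
  rw [hσy, nrm_sub_comm p y0 ϖ] at hβϖ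
  have hβ : nrm p β = nrm p ϖ := by
    have h1 : β = (β - ϖ) + ϖ := by ring
    have h2 : nrm p (β - ϖ) ≠ nrm p ϖ := (hβϖ.trans_lt hy0lt).ne
    rw [h1, nrm_add_eq_max_of_ne p h2]
    exact max_eq_right (hβϖ.trans hy0lt.le)
  have hsmall : nrm p (∏ y ∈ orb D0 ϖ, (β - y)) ^ (p - 1) < nrm p (p : Qbar) ^ p := by
    refine lt_of_le_of_lt (pow_le_pow_left₀ (nrm_nonneg p _) ?_ _) hcon
    rw [← Finset.mul_prod_erase _ _ (self_mem_orb D0 ϖ), nrm_mul, nrm_prod, nrm_prod]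
    have h1 : nrm p (β - ϖ) ≤ 1 := (hβϖ.trans hy0lt.le).trans T.lt.le
    have h2 : ∏ y ∈ (orb D0 ϖ).erase ϖ, nrm p (β - y) ≤
        ∏ y ∈ (orb D0 ϖ).erase ϖ, nrm p (ϖ - y) := by
      refine Finset.prod_le_prod (fun _ _ => nrm_nonneg p _) fun y hy => ?_
      have h3 : β - y = (β - ϖ) + (ϖ - y) := by ring
      rw [h3]
      exact (nrm_add_le_max p _ _).trans (max_le (hβϖ.trans (hmin y hy)) le_rfl)
    calc nrm p (β - ϖ) * ∏ y ∈ (orb D0 ϖ).erase ϖ, nrm p (β - y)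
        ≤ 1 * ∏ y ∈ (orb D0 ϖ).erase ϖ, nrm p (ϖ - y) :=
          mul_le_mul h1 h2 (Finset.prod_nonneg fun _ _ => nrm_nonneg p _) zero_le_one
      _ = _ := one_mul _
  have hmem := core hR h hΓ hpE T hDM hτ hτβ hβ hsmall
  have h5 : τ ϖ = ϖ := (mem_Fix_iff.1 T.mem) τ hmem
  rw [hτϖ, hσy] at h5
  exact (Finset.ne_of_mem_erase hy0) h5

/-- **the ramification bound**, unbundled form (EXPORT). -/
theorem ram_bound [Finite E] (hR : ∀ r ∈ R, nrm p r ≤ 1) (h : Ord R Γ act H) (hΓ : D0 ≤ Γ)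
    (hpE : ∀ x : E, p • x = 0) (hD0 : IsOpenIn (Dq p) D0) (hI : Iq p ≤ D0)
    (hDM : ∀ g, g ∈ DM ↔ g ∈ D0 ∧ ∀ x, act g x = x)
    (htot : ∀ g ∈ D0, ∃ i ∈ Iq p, i⁻¹ * g ∈ DM)
    (hϖ : ϖ ∈ Places.Fix DM) (hϖ0 : ϖ ≠ 0) (hϖ1 : nrm p ϖ < 1)
    (hunif : ∀ x ∈ Places.Fix DM, x ≠ 0 → ∃ n : ℤ, nrm p x = nrm p ϖ ^ n) :
    nrm p (p : Qbar) ^ p ≤
      nrm p (aeval ϖ (derivative (minpoly (Places.Fix D0) ϖ))) ^ (p - 1) :=
  ram_bound' hR h hΓ hpE
    ⟨hD0, hI, isOpenIn_ker h hΓ hDM, normal_ker h hΓ hDM, htot, hϖ, hϖ0, hϖ1, hunif⟩ hDM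

end Fermat.Agent.S56.F.Ram

end
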