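/-
S56 / F / Ram / Bridge : from a global `FlatOrder` to an order over `OW p Γ` with symmetry group `Γ`
(`Γ = ⊤` : the GLOBAL order, base `= ℤ_(p)`; needed by TAME and RAM, which use `D_p`-equivariance).
Same proof as `F.Ord.of_flatOrder` (helper28 / helper69).      (helper6)
-/
import Fermat.Agent.S56.F.Ram.Defs
import Fermat.Agent.S56.F.OfFlat

set_option autoImplicit false

noncomputable section

namespace Fermat.Agent.S56.F.Ram

open Fermat.Agent.S55 Fermat.Agent.S55.Places

variable {p : ℕ} [Fact p.Prime]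

theorem nrm_le_one_of_mem_OW (Γ : Subgroup GQ) : ∀ r ∈ OW p Γ, nrm p r ≤ 1 := fun _ hr => hr.1

/-- elements of `ℤ_(p)` lie in `OW p Γ`. -/
theorem algebraMap_mem_OW (Γ : Subgroup GQ) (r : S19.A.Zl p) :
    algebraMap ℚ Qbar (r : ℚ) ∈ OW p Γ :=
  ⟨(OfFlat_algebraMap_mem_R0 r).1, fun σ _ => σ.commutes _⟩

/-- **base change** `ℤ_(p) → OW p Γ`, `GQ → Γ`. -/
theorem ord_of_flatOrder (Γ : Subgroup GQ) {E : Type} [AddCommGroup E] {act : GQ → E → E}
    {H : Subalgebra (S19.A.Zl p) (E → Qbar)} (h : S19.A.FlatOrder p act H) :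
    ∃ H' : Subalgebra (OW p Γ) (E → Qbar), Ord (OW p Γ) Γ act H' := by
  refine ⟨Algebra.adjoin (OW p Γ) (H : Set (E → Qbar)), ?_, ?_, ?_, ?_⟩
  · intro f hf σ hσ x
    induction hf using Algebra.adjoin_induction with
    | mem f hf => exact h.equiv f hf σ x
    | algebraMap r => exact (r.2.2 σ hσ).symm
    | add f g _ _ ihf ihg => rw [Pi.add_apply, Pi.add_apply, map_add, ihf, ihg]
    | mul f g _ _ ihf ihg => rw [Pi.mul_apply, Pi.mul_apply, map_mul, ihf, ihg]
  · obtain ⟨s, hs⟩ := h.fg
    refine ⟨s, ?_⟩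
    rw [Algebra.adjoin_eq_span]
    have hcl : (Submonoid.closure (H : Set (E → Qbar)) : Set (E → Qbar)) = H :=
      congrArg (fun S : Submonoid (E → Qbar) => (S : Set (E → Qbar)))
        (Submonoid.closure_eq H.toSubmonoid)
    rw [hcl]
    apply le_antisymm
    · apply Submodule.span_mono
      intro f hf
      have h1 : f ∈ Submodule.span (S19.A.Zl p) (s : Set (E → Qbar)) := Submodule.subset_span hf
      rw [hs] at h1
      exact h1
    · rw [Submodule.span_le]
      have key : ∀ f ∈ Submodule.span (S19.A.Zl p) (s : Set (E → Qbar)),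
          f ∈ Submodule.span (OW p Γ) (s : Set (E → Qbar)) := by
        intro f hf
        induction hf using Submodule.span_induction with
        | mem f hf => exact Submodule.subset_span hf
        | zero => exact zero_mem _
        | add f g _ _ ihf ihg => exact add_mem ihf ihg
        | smul r f _ ihf =>
          have h1 : r • f = (⟨algebraMap ℚ Qbar (r : ℚ), algebraMap_mem_OW Γ r⟩ : OW p Γ) • f := by
            funext x
            rw [Pi.smul_apply, Pi.smul_apply, Subring.smul_def, smul_eq_mul, Algebra.smul_def]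
            rfl
          rw [h1]
          exact Submodule.smul_mem _ _ ihf
      intro f hf
      apply key
      rw [hs]
      exact hf
  · intro x y hxy
    obtain ⟨f, hf, hne⟩ := h.sep x y hxy
    exact ⟨f, Algebra.subset_adjoin hf, hne⟩
  · apply S19.A.comulClosed_adjoin
    intro f hf
    obtain ⟨ι, hι, a, b, ha, hb, hab⟩ := h.comul f hf
    exact ⟨ι, hι, a, b, fun i => Algebra.subset_adjoin (ha i),
      fun i => Algebra.subset_adjoin (hb i), hab⟩

variable {k : Type} [Field k] [Finite k]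

/-- the GLOBAL order on `k[ε]²` of a flat lift. -/
theorem exists_ord_defAct_top (M : GQ →* M2 k) (ρ' : GaloisRepAdic (DualNumber k))
    (z : GQ → M2 k) (hz : IsClassOf M ρ' z) (hfl : ρ'.IsFlatAt p) :
    ∃ H : Subalgebra (OW p ⊤) (EE k → Qbar), Ord (OW p ⊤) ⊤ (defAct M z) H := by
  obtain ⟨H, hH⟩ := exists_flatOrder_defAct M ρ' z hz hfl
  exact ord_of_flatOrder ⊤ hH

omit [Finite k] in
/-- the GLOBAL order on the sub-object `ε E ≅ k²`. -/
theorem exists_ord_resAct_top {M : GQ →* M2 k} {z : GQ → M2 k} {R : Subring Qbar}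
    {Γ : Subgroup GQ} {H : Subalgebra R (EE k → Qbar)} (h : Ord R Γ (defAct M z) H) :
    Ord R Γ (resAct M) (H.map (S19.A.pullHom R (epsHom k))) :=
  h.of_injective (epsHom k) (fun a b hab => by simpa [epsHom] using hab)
    (fun σ _ w => epsHom_resAct M z σ w)

end Fermat.Agent.S56.F.Ram

end
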